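/-
S15lib / Adm / Chain  (helper3)  — Project E, block (ADM)

Abstract existence of a chain of `P`-subgroups with `P`-maximal steps inside a finite subgroup.
-/
import Mathlib

set_option autoImplicit false

noncomputable section

namespace Fermat.Agent.S15lib.Adm

variable {J : Type*} [AddCommGroup J]

/-- `Y ≤ X` is a `P`-maximal step -/
def IsMaxStep (P : AddSubgroup J → Prop) (Y X : AddSubgroup J) : Prop :=
  Y < X ∧ ∀ Z : AddSubgroup J, P Z → Y ≤ Z → Z ≤ X → Z = Y ∨ Z = X

theorem card_lt_of_lt {Y X : AddSubgroup J} [Finite X] (h : Y < X) : Nat.card Y < Nat.card X := by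
  have hfin : (X : Set J).Finite := Set.toFinite _
  have hss : (Y : Set J) ⊂ (X : Set J) := SetLike.coe_ssubset_coe.2 h
  have := Set.ncard_lt_ncard hss hfin
  rwa [← Nat.card_coe_set_eq, ← Nat.card_coe_set_eq] at this

theorem eq_of_le_of_card_le {Y Z : AddSubgroup J} [Finite Z] (h : Y ≤ Z)
    (hc : Nat.card Z ≤ Nat.card Y) : Y = Z := by
  have hfin : (Z : Set J).Finite := Set.toFinite _
  have hss : (Y : Set J) ⊆ (Z : Set J) := SetLike.coe_subset_coe.2 h
  have hc' : (Z : Set J).ncard ≤ (Y : Set J).ncard := by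
    rwa [← Nat.card_coe_set_eq, ← Nat.card_coe_set_eq]
  exact SetLike.coe_injective (Set.eq_of_subset_of_ncard_le hss hc' hfin)

/-- a `P`-maximal proper `P`-subgroup of a nonzero finite `P`-subgroup -/
theorem exists_isMaxStep (P : AddSubgroup J → Prop) (hbot : P ⊥) (X : AddSubgroup J) [Finite X]
    (hX : X ≠ ⊥) : ∃ Y : AddSubgroup J, P Y ∧ IsMaxStep P Y X := by
  classical
  let s : Set ℕ := {m | ∃ Y : AddSubgroup J, Y < X ∧ P Y ∧ Nat.card Y = m}
  have hne : s.Nonempty := ⟨Nat.card (⊥ : AddSubgroup J), ⊥, bot_lt_iff_ne_bot.2 hX, hbot, rfl⟩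
  have hbdd : BddAbove s := by
    refine ⟨Nat.card X, ?_⟩
    rintro m ⟨Y, hY, -, rfl⟩
    exact le_of_lt (card_lt_of_lt hY)
  obtain ⟨Y, hYX, hPY, hcard⟩ := Nat.sSup_mem hne hbdd
  refine ⟨Y, hPY, hYX, fun Z hPZ hYZ hZX => ?_⟩
  by_cases hZ : Z = X
  · exact Or.inr hZ
  · left
    have hZlt : Z < X := lt_of_le_of_ne hZX hZ
    have hmem : Nat.card Z ∈ s := ⟨Z, hZlt, hPZ, rfl⟩
    have hle : Nat.card Z ≤ Nat.card Y := by
      rw [hcard]
      exact le_csSup hbdd hmem
    haveI : Finite Z := Finite.of_injective (fun z : Z => (⟨z.1, hZX z.2⟩ : X))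
      (fun a b h => Subtype.ext (congrArg (fun t : X => (t : J)) h))
    exact (eq_of_le_of_card_le hYZ hle).symm

/-- **the chain** -/
theorem exists_chain (P : AddSubgroup J → Prop) (hbot : P ⊥) :
    ∀ (m : ℕ) (X : AddSubgroup J) [Finite X], Nat.card X ≤ m → P X →
      ∃ (n : ℕ) (W : ℕ → AddSubgroup J), W 0 = ⊥ ∧ W n = X ∧ (∀ i ≤ n, P (W i)) ∧
        ∀ i < n, IsMaxStep P (W i) (W (i + 1)) := by
  intro m
  induction m with
  | zero =>
    intro X _ hcard _
    have : 0 < Nat.card X := Nat.card_pos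
    omega
  | succ m ih =>
    intro X _ hcard hPX
    by_cases hX : X = ⊥
    · refine ⟨0, fun _ => ⊥, rfl, hX.symm, fun i _ => hbot, fun i hi => absurd hi (Nat.not_lt_zero i)⟩
    · obtain ⟨Y, hPY, hstep⟩ := exists_isMaxStep P hbot X hX
      haveI : Finite Y := Finite.of_injective (fun z : Y => (⟨z.1, hstep.1.le z.2⟩ : X))
        (fun a b h => Subtype.ext (congrArg (fun t : X => (t : J)) h))
      have hYcard : Nat.card Y ≤ m := by
        have := card_lt_of_lt hstep.1
        omega
      obtain ⟨n, W, hW0, hWn, hWP, hWstep⟩ := ih Y hYcard hPY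
      refine ⟨n + 1, fun i => if i ≤ n then W i else X, ?_, ?_, ?_, ?_⟩
      · show (if 0 ≤ n then W 0 else X) = ⊥
        rw [if_pos (Nat.zero_le n), hW0]
      · show (if n + 1 ≤ n then W (n + 1) else X) = X
        rw [if_neg (by omega)]
      · intro i hi
        show P (if i ≤ n then W i else X)
        by_cases h : i ≤ n
        · rw [if_pos h]; exact hWP i h
        · rw [if_neg h]; exact hPX
      · intro i hi
        show IsMaxStep P (if i ≤ n then W i else X) (if i + 1 ≤ n then W (i + 1) else X)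
        by_cases h : i < n
        · rw [if_pos (le_of_lt h), if_pos (by omega)]
          exact hWstep i h
        · have hin : i = n := by omega
          rw [if_pos (by omega), if_neg (by omega), hin, hWn]
          exact hstep

end Fermat.Agent.S15lib.Adm

end
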