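/-
S15lib / Adm / Comm  (helper3)  — Project E, block (ADM)

The Hecke operators `T_q`, `q ≠ p`, commute on the torsion of `J₀(p)(ℚ̄)`:
`S35lib.New.killer_tors` (a non-commutative Hecke polynomial killing `S₂(Γ₀(p))` kills the torsion)
applied to `XY − YX`, with the prelude's `CuspForm.heckeTLin_comm`.
-/
import Fermat.Agent.S15lib.Iface
import Fermat.Agent.S35lib.New.KillerJ
import Fermat.Prelude.Thm_CuspForm_heckeTLin_comm

set_option autoImplicit false
set_option linter.unusedSectionVars false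

noncomputable section

namespace Fermat.Agent.S15lib.Adm

open ModularCurve Fermat.Agent.S29lib Fermat.Agent.S35lib.New

local notation "Qb" => AlgebraicClosure ℚ
local notation "GQ" => (AlgebraicClosure ℚ ≃ₐ[ℚ] AlgebraicClosure ℚ)

variable {p : ℕ} [NeZero p]

/-- `n`-torsion, `ℕ`-form versus `S29lib.Tors` -/
theorem mem_Tors_iff {n : ℕ} {x : JZero p} : x ∈ Tors p n ↔ n • x = 0 := by
  rw [Submodule.mem_torsionBy_iff, natCast_zsmul]

/-- the commutator polynomial -/
def commPoly : FreeRing (Fin 2) := FreeRing.of 0 * FreeRing.of 1 - FreeRing.of 1 * FreeRing.of 0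

/-- the Hecke operators on `S₂(Γ₀(p))` at primes `≠ p` commute -/
theorem lift_heckeS2_commPoly (hp : p.Prime) {q q' : Nat.Primes} (hq : (q : ℕ) ≠ p)
    (hq' : (q' : ℕ) ≠ p) :
    FreeRing.lift (fun i : Fin 2 => H.heckeS2 p (![q, q'] i)) commPoly = 0 := by
  have hqp : ¬ (q : ℕ) ∣ p := fun h => hq ((Nat.prime_dvd_prime_iff_eq q.2 hp).1 h)
  have hqp' : ¬ (q' : ℕ) ∣ p := fun h => hq' ((Nat.prime_dvd_prime_iff_eq q'.2 hp).1 h)
  rw [commPoly, map_sub, map_mul, map_mul, FreeRing.lift_of, FreeRing.lift_of]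
  simp only [Matrix.cons_val_zero, Matrix.cons_val_one]
  rw [H.heckeS2_of_not_dvd p hqp, H.heckeS2_of_not_dvd p hqp', sub_eq_zero]
  exact (CuspForm.heckeTLin_comm 2 q.2 hqp q'.2 hqp').eq

/-- **`T_q T_q' = T_q' T_q` on `J[r^k]`** -/
theorem TJ_comm_of_pow_smul (hp : p.Prime) {q q' : Nat.Primes} (hq : (q : ℕ) ≠ p)
    (hq' : (q' : ℕ) ≠ p) {r : ℕ} (hr : r.Prime) (k : ℕ) {x : JZero p} (hx : r ^ k • x = 0) :
    TJ p q (TJ p q' x) = TJ p q' (TJ p q x) := by
  have h := killer_tors (N := p) (fun i : Fin 2 => ![q, q'] i) commPoly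
    (lift_heckeS2_commPoly hp hq hq') hr k (mem_Tors_iff.2 hx)
  rw [commPoly, map_sub, map_mul, map_mul, FreeRing.lift_of, FreeRing.lift_of] at h
  simp only [Matrix.cons_val_zero, Matrix.cons_val_one] at h
  exact sub_eq_zero.1 h

end Fermat.Agent.S15lib.Adm

end
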