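/-
S15lib / Adm / Fitting  (helper3)  — Project E, block (ADM)

The simultaneous Fitting projector of a family of pairwise commuting endomorphisms `a i` of a FINITE
abelian group `M`: there are a list `L` of indices and exponents `s i` such that
`e = ∏_{i ∈ L} (1 − (a i)^(s i))` maps `M` into the generalised kernel
`genKer a = {x | ∀ i, ∃ j, (a i)^j x = 0}` and is the identity on it.
-/
import Mathlib

set_option autoImplicit false

noncomputable section

namespace Fermat.Agent.S15lib.Adm

/-- in a finite monoid some positive power of every element is idempotent -/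
theorem exists_pow_idempotent {R : Type*} [Monoid R] [Finite R] (a : R) :
    ∃ s : ℕ, 0 < s ∧ a ^ s * a ^ s = a ^ s := by
  obtain ⟨m, n, hmn, h⟩ := Finite.exists_ne_map_eq_of_infinite (fun k : ℕ => a ^ k)
  wlog hlt : m < n generalizing m n
  · exact this n m hmn.symm h.symm (lt_of_le_of_ne (not_lt.1 hlt) hmn.symm)
  obtain ⟨d, rfl⟩ : ∃ d, n = m + d := ⟨n - m, by omega⟩
  have hd : 0 < d := by omega
  have hstep : ∀ i, m ≤ i → a ^ (i + d) = a ^ i := by
    intro i hi
    obtain ⟨t, rfl⟩ : ∃ t, i = m + t := ⟨i - m, by omega⟩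
    have h' : a ^ (m + d) = a ^ m := h.symm
    calc a ^ (m + t + d) = a ^ (m + d) * a ^ t := by rw [← pow_add]; congr 1; omega
      _ = a ^ m * a ^ t := by rw [h']
      _ = a ^ (m + t) := by rw [← pow_add]
  have hmul : ∀ k i, m ≤ i → a ^ (i + k * d) = a ^ i := by
    intro k
    induction k with
    | zero => intro i _; rw [zero_mul, add_zero]
    | succ k ih =>
      intro i hi
      rw [Nat.succ_mul, ← add_assoc, hstep _ (by omega), ih i hi]
  refine ⟨(m + 1) * d, Nat.mul_pos (Nat.succ_pos m) hd, ?_⟩
  rw [← pow_add]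
  refine hmul (m + 1) _ ?_
  calc m ≤ (m + 1) * 1 := by omega
    _ ≤ (m + 1) * d := Nat.mul_le_mul_left _ hd

variable {M : Type*} [AddCommGroup M] {I : Type*}

/-- the simultaneous generalised kernel -/
def genKer (a : I → AddMonoid.End M) : AddSubgroup M where
  carrier := {x | ∀ i, ∃ j : ℕ, (a i ^ j) x = 0}
  zero_mem' := fun _ => ⟨0, map_zero _⟩
  add_mem' := by
    intro x y hx hy i
    obtain ⟨j, hj⟩ := hx i
    obtain ⟨j', hj'⟩ := hy i
    refine ⟨j + j', ?_⟩
    rw [map_add]
    have h1 : (a i ^ (j + j')) x = 0 := by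
      rw [add_comm, pow_add]
      show (a i ^ j') ((a i ^ j) x) = 0
      rw [hj, map_zero]
    have h2 : (a i ^ (j + j')) y = 0 := by
      rw [pow_add]
      show (a i ^ j) ((a i ^ j') y) = 0
      rw [hj', map_zero]
    rw [h1, h2, add_zero]
  neg_mem' := by
    intro x hx i
    obtain ⟨j, hj⟩ := hx i
    exact ⟨j, by rw [map_neg, hj, neg_zero]⟩

theorem mem_genKer {a : I → AddMonoid.End M} {x : M} :
    x ∈ genKer a ↔ ∀ i, ∃ j : ℕ, (a i ^ j) x = 0 := Iff.rfl

/-- an idempotent power kills the generalised kernel -/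
theorem pow_apply_eq_zero_of_idem {b : AddMonoid.End M} {s : ℕ} (hs : 0 < s)
    (hidem : b ^ s * b ^ s = b ^ s) {x : M} {j : ℕ} (hj : (b ^ j) x = 0) : (b ^ s) x = 0 := by
  -- `b^s = b^(s (j+1))`
  have hpow : ∀ t : ℕ, (b ^ s) ^ (t + 1) = b ^ s := by
    intro t
    induction t with
    | zero => rw [zero_add, pow_one]
    | succ t ih => rw [pow_succ, ih, hidem]
  have h1 : b ^ s = b ^ (s * (j + 1)) := by rw [pow_mul, hpow j]
  rw [h1]
  obtain ⟨u, hu⟩ : ∃ u, s * (j + 1) = u + j := ⟨s * (j + 1) - j, by
    have : j ≤ s * (j + 1) := by nlinarith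
    omega⟩
  rw [hu, pow_add]
  show (b ^ u) ((b ^ j) x) = 0
  rw [hj, map_zero]

/-- **the simultaneous Fitting projector** -/
theorem exists_fitting [Finite M] (a : I → AddMonoid.End M)
    (hcomm : ∀ i i', Commute (a i) (a i')) :
    ∃ (L : List I) (s : I → ℕ),
      (∀ x : M, (L.map fun i => 1 - a i ^ s i).prod x ∈ genKer a) ∧
      ∀ x ∈ genKer a, (L.map fun i => 1 - a i ^ s i).prod x = x := by
  classical
  haveI : Finite (AddMonoid.End M) :=
    Finite.of_injective (fun f : AddMonoid.End M => (f : M → M)) DFunLike.coe_injective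
  choose s hs hidem using fun i => exists_pow_idempotent (a i)
  -- a finite set of indices detecting the complement of the generalised kernel
  have hbad : ∀ x : M, x ∉ genKer a → ∃ i, ∀ j : ℕ, (a i ^ j) x ≠ 0 := by
    intro x hx
    rw [mem_genKer] at hx
    push_neg at hx
    exact hx
  let w : M → Option I := fun x => if h : x ∈ genKer a then none else some (hbad x h).choose
  have hw : ∀ x : M, x ∉ genKer a → ∃ i, w x = some i ∧ ∀ j : ℕ, (a i ^ j) x ≠ 0 := by
    intro x hx
    refine ⟨(hbad x hx).choose, ?_, (hbad x hx).choose_spec⟩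
    show (if h : x ∈ genKer a then none else some (hbad x h).choose) = _
    rw [dif_neg hx]
  haveI : Fintype M := Fintype.ofFinite M
  let S : Finset I := (Finset.univ.image w).eraseNone
  let L : List I := S.toList
  have hL : ∀ x : M, x ∉ genKer a → ∃ i ∈ L, ∀ j : ℕ, (a i ^ j) x ≠ 0 := by
    intro x hx
    obtain ⟨i, hi, hij⟩ := hw x hx
    refine ⟨i, ?_, hij⟩
    rw [Finset.mem_toList, Finset.mem_eraseNone, Finset.mem_image]
    exact ⟨x, Finset.mem_univ _, hi⟩
  set f : I → AddMonoid.End M := fun i => 1 - a i ^ s i with hf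
  have hfcomm : ∀ i i', Commute (a i ^ s i) (f i') := fun i i' =>
    ((Commute.one_right _).sub_right (((hcomm i i').pow_right _))).pow_left _
  -- `a i ^ s i` kills the product as soon as `i ∈ L`
  have hkill : ∀ (L' : List I) (i : I), i ∈ L' → a i ^ s i * (L'.map f).prod = 0 := by
    intro L'
    induction L' with
    | nil => intro i hi; simp at hi
    | cons i₀ L' ih =>
      intro i hi
      rw [List.map_cons, List.prod_cons]
      rcases List.mem_cons.1 hi with rfl | hi'
      · rw [← mul_assoc]
        have : a i ^ s i * f i = 0 := by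
          rw [hf]
          show a i ^ s i * (1 - a i ^ s i) = 0
          rw [mul_sub, mul_one, hidem i, sub_self]
        rw [this, zero_mul]
      · rw [← mul_assoc, (hfcomm i i₀).eq, mul_assoc, ih i hi', mul_zero]
  -- the product fixes the generalised kernel
  have hfix : ∀ (L' : List I), ∀ x ∈ genKer a, (L'.map f).prod x = x := by
    intro L'
    induction L' with
    | nil => intro x _; simp
    | cons i₀ L' ih =>
      intro x hx
      rw [List.map_cons, List.prod_cons]
      show f i₀ ((L'.map f).prod x) = x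
      rw [ih x hx, hf]
      show (1 : AddMonoid.End M) x - (a i₀ ^ s i₀) x = x
      obtain ⟨j, hj⟩ := hx i₀
      rw [pow_apply_eq_zero_of_idem (hs i₀) (hidem i₀) hj, sub_zero]
      rfl
  refine ⟨L, s, fun x => ?_, hfix L⟩
  by_contra hx
  obtain ⟨i, hi, hij⟩ := hL _ hx
  apply hij (s i)
  have := hkill L i hi
  have h2 : (a i ^ s i * (L.map f).prod) x = 0 := by rw [this]; rfl
  exact h2

end Fermat.Agent.S15lib.Adm

end
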