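/-
S15lib / Adm / HProj  (helper3)  — Project E, block (ADM)

`hProjStmt : Desc.HProjStmt`: the Eisenstein projector at level `r^K` is a Hecke polynomial.

`T = J[r^K]` is finite (Kummer comparison `S35lib.New.comparisonDataAt`), every additive endomorphism
of `J` restricts to `T` (a ring homomorphism `resT`), the restrictions of the `η_q = T_q − 1 − q`
commute (`Adm/Comm.lean`), and `Adm/Fitting.lean` gives the projector as a product of the
`1 − η_q^{s_q}`.
-/
import Fermat.Agent.S15lib.Desc.Iface
import Fermat.Agent.S15lib.Adm.Comm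
import Fermat.Agent.S15lib.Adm.Fitting

set_option autoImplicit false
set_option linter.unusedSectionVars false
set_option linter.style.haveILetI false

noncomputable section

namespace Fermat.Agent.S15lib.Adm

open ModularCurve Fermat.Agent.S29lib Fermat.Agent.S35lib.New Fermat.Agent.S15lib.Desc

local notation "Qb" => AlgebraicClosure ℚ
local notation "GQ" => (AlgebraicClosure ℚ ≃ₐ[ℚ] AlgebraicClosure ℚ)

/-! ### restriction of endomorphisms to the torsion -/

section Res

variable {J : Type*} [AddCommGroup J] (n : ℕ)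

/-- the `n`-torsion subgroup -/
def torsSub : AddSubgroup J := (nsmulAddMonoidHom (α := J) n).ker

theorem mem_torsSub {x : J} : x ∈ torsSub (J := J) n ↔ n • x = 0 := by
  rw [torsSub, AddMonoidHom.mem_ker]
  rfl

theorem map_mem_torsSub (f : AddMonoid.End J) {x : J} (hx : x ∈ torsSub (J := J) n) :
    f x ∈ torsSub (J := J) n := by
  rw [mem_torsSub] at hx ⊢
  rw [← map_nsmul, hx, map_zero]

/-- restriction of an additive endomorphism to the `n`-torsion, as a ring homomorphism -/
def resT : AddMonoid.End J →+* AddMonoid.End ↥(torsSub (J := J) n) where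
  toFun f := (f.comp (torsSub (J := J) n).subtype).codRestrict (torsSub (J := J) n)
    (fun x => map_mem_torsSub n f x.2)
  map_one' := by
    apply AddMonoidHom.ext
    intro x
    exact Subtype.ext rfl
  map_mul' f g := by
    apply AddMonoidHom.ext
    intro x
    exact Subtype.ext rfl
  map_zero' := by
    apply AddMonoidHom.ext
    intro x
    exact Subtype.ext rfl
  map_add' f g := by
    apply AddMonoidHom.ext
    intro x
    exact Subtype.ext rfl

@[simp] theorem coe_resT (f : AddMonoid.End J) (x : ↥(torsSub (J := J) n)) :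
    ((resT n f x : ↥(torsSub (J := J) n)) : J) = f x := rfl

end Res

/-! ### finiteness of the torsion -/

section Fin

variable {p : ℕ} [NeZero p]

theorem finite_torsSub {r : ℕ} (hr : r.Prime) (K : ℕ) :
    Finite ↥(torsSub (J := JZero p) (r ^ K)) := by
  haveI : NeZero (r ^ K) := ⟨pow_ne_zero K hr.ne_zero⟩
  let κ := (comparisonDataAt p hr).κ K
  haveI : Finite ↥(Tors p (r ^ K)) := Finite.of_equiv _ κ.symm.toEquiv
  refine Finite.of_injective
    (fun x : ↥(torsSub (J := JZero p) (r ^ K)) =>
      (⟨x.1, mem_Tors_iff.2 ((mem_torsSub _).1 x.2)⟩ : ↥(Tors p (r ^ K)))) ?_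
  intro x y h
  exact Subtype.ext (congrArg (fun z : ↥(Tors p (r ^ K)) => (z : JZero p)) h)

end Fin

/-! ### the projector -/

theorem comm_aux {J : Type*} [AddCommGroup J] (T T' : J →+ J) (c c' : ℕ) (x : J)
    (h : T (T' x) = T' (T x)) :
    T (T' x - c' • x) - c • (T' x - c' • x) = T' (T x - c • x) - c' • (T x - c • x) := by
  simp only [map_sub, map_nsmul, nsmul_sub, h]
  rw [smul_comm c c' x]
  abel

section Proj

variable {p : ℕ} [NeZero p]

theorem eta_apply (q : Nat.Primes) (x : JZero p) :
    eta p q x = TJ p q x - (1 + (q : ℕ)) • x := by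
  rw [eta]
  show TJ p q x - ((1 + (q : ℕ) : ℕ) : AddMonoid.End (JZero p)) x = _
  rw [AddMonoid.End.natCast_apply]

theorem eta_mem_heckeRing (q : Nat.Primes) (hq : (q : ℕ) ≠ p) : eta p q ∈ heckeRing p := by
  rw [eta]
  refine (heckeRing p).sub_mem (Subring.subset_closure ⟨q, hq, rfl⟩) ?_
  exact natCast_mem _ _

/-- **(HPROJ)** -/
theorem hProjStmt : HProjStmt := by
  intro p hp r hr hrp K
  haveI : NeZero p := ⟨hp.ne_zero⟩
  classical
  haveI := finite_torsSub (p := p) hr K
  let I := {q : Nat.Primes // (q : ℕ) ≠ p}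
  let a : I → AddMonoid.End ↥(torsSub (J := JZero p) (r ^ K)) := fun i => resT (r ^ K) (eta p i.1)
  have hcomm : ∀ i i', Commute (a i) (a i') := by
    intro i i'
    apply AddMonoidHom.ext
    intro x
    apply Subtype.ext
    show eta p i.1 (eta p i'.1 x) = eta p i'.1 (eta p i.1 x)
    have hx : r ^ K • (x : JZero p) = 0 := (mem_torsSub _).1 x.2
    have h := TJ_comm_of_pow_smul hp i.2 i'.2 hr K hx
    rw [eta_apply, eta_apply, eta_apply, eta_apply]
    exact comm_aux _ _ _ _ _ h
  obtain ⟨L, s, h1, h2⟩ := exists_fitting a hcomm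
  let eJ : AddMonoid.End (JZero p) := (L.map fun i : I => 1 - eta p i.1 ^ s i).prod
  have hres : resT (r ^ K) eJ = (L.map fun i => 1 - a i ^ s i).prod := by
    show resT (r ^ K) (L.map fun i : I => 1 - eta p i.1 ^ s i).prod = _
    rw [map_list_prod, List.map_map]
    congr 1
    apply List.map_congr_left
    intro i _
    show resT (r ^ K) (1 - eta p i.1 ^ s i) = 1 - a i ^ s i
    rw [map_sub, map_one, map_pow]
  refine ⟨eJ, ?_, ?_, ?_⟩
  · -- membership in the Hecke ring
    refine list_prod_mem ?_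
    intro t ht
    obtain ⟨i, -, rfl⟩ := List.mem_map.1 ht
    exact (heckeRing p).sub_mem (heckeRing p).one_mem
      ((heckeRing p).pow_mem (eta_mem_heckeRing i.1 i.2) _)
  · -- the image lies in `VE`
    intro x hx
    have hxT : x ∈ torsSub (J := JZero p) (r ^ K) := (mem_torsSub _).2 hx
    have hmem := h1 ⟨x, hxT⟩
    rw [← hres] at hmem
    refine ⟨(mem_torsSub _).1 (map_mem_torsSub _ eJ hxT), fun q hq => ?_⟩
    obtain ⟨j, hj⟩ := hmem ⟨q, hq⟩
    refine ⟨j, ?_⟩
    have h3 : ((a ⟨q, hq⟩ ^ j) (resT (r ^ K) eJ ⟨x, hxT⟩) : JZero p) = 0 := by rw [hj]; rfl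
    have h4 : a ⟨q, hq⟩ ^ j = resT (r ^ K) (eta p q ^ j) := by rw [map_pow]
    rw [h4] at h3
    exact h3
  · -- the identity on `VE`
    intro x hx
    have hxT : x ∈ torsSub (J := JZero p) (r ^ K) := (mem_torsSub _).2 hx.1
    have hmem : (⟨x, hxT⟩ : ↥(torsSub (J := JZero p) (r ^ K))) ∈ genKer a := by
      intro i
      obtain ⟨j, hj⟩ := hx.2 i.1 i.2
      refine ⟨j, Subtype.ext ?_⟩
      have h4 : a i ^ j = resT (r ^ K) (eta p i.1 ^ j) := by rw [map_pow]
      rw [h4]
      exact hj
    have h5 := h2 _ hmem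
    rw [← hres] at h5
    exact congrArg (fun z : ↥(torsSub (J := JZero p) (r ^ K)) => (z : JZero p)) h5

end Proj

end Fermat.Agent.S15lib.Adm

end
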