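/-
S15lib / Adm / Count  (helper3)  — Project E, block (ADM), by-product asked for by helper5 (ORD)

`card_VE_pow : Nat.card (VE p r K) = Nat.card (VE p r 1) ^ K`.

`J[r^K] ≃ (ℤ/r^K)^R` (Kummer comparison) has `|J[r^K]| = |J[r]|^K`; the Eisenstein part is a direct
summand (the projector `e` of `hProjStmt`), and for a finite abelian group `A` killed by `r^K` one has
`|A| ≤ |A[r]|^K`; equality for the sum forces equality for the summands.
-/
import Fermat.Agent.S15lib.Adm.HProj

set_option autoImplicit false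
set_option linter.unusedSectionVars false
set_option linter.style.haveILetI false

noncomputable section

namespace Fermat.Agent.S15lib.Adm

open ModularCurve Fermat.Agent.S29lib Fermat.Agent.S35lib.New Fermat.Agent.S15lib.Desc

universe u

/-! ### abstract counting -/

/-- a finite abelian group killed by `r^K` has at most `|A[r]|^K` elements -/
theorem card_le_card_torsSub_pow (r : ℕ) (K : ℕ) : ∀ (A : Type u) [AddCommGroup A] [Finite A],
    (∀ x : A, r ^ K • x = 0) → Nat.card A ≤ Nat.card ↥(torsSub (J := A) r) ^ K := by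
  induction K with
  | zero =>
    intro A _ _ h
    haveI : Subsingleton A := ⟨fun x y => by
      have hx := h x
      have hy := h y
      rw [pow_zero, one_nsmul] at hx hy
      rw [hx, hy]⟩
    rw [pow_zero, Nat.card_of_subsingleton (0 : A)]
  | succ K ih =>
    intro A _ _ h
    let f : A →+ A := nsmulAddMonoidHom (α := A) r
    have hker : f.ker = torsSub (J := A) r := rfl
    have h1 : Nat.card ↥f.ker * Nat.card ↥f.range = Nat.card A := by
      rw [← AddSubgroup.index_ker]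
      exact AddSubgroup.card_mul_index _
    have h2 : ∀ y : ↥f.range, r ^ K • y = 0 := by
      rintro ⟨y, x, rfl⟩
      apply Subtype.ext
      show r ^ K • (r • x) = 0
      rw [← mul_nsmul', ← pow_succ]
      exact h x
    have h3 := ih ↥f.range h2
    have h4 : Nat.card ↥(torsSub (J := ↥f.range) r) ≤ Nat.card ↥(torsSub (J := A) r) := by
      refine Nat.card_le_card_of_injective
        (fun y : ↥(torsSub (J := ↥f.range) r) =>
          (⟨(y.1 : A), (mem_torsSub _).2 (by
            have := (mem_torsSub _).1 y.2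
            exact congrArg (fun z : ↥f.range => (z : A)) this)⟩ : ↥(torsSub (J := A) r))) ?_
      intro y y' hyy
      apply Subtype.ext
      apply Subtype.ext
      exact congrArg (fun z : ↥(torsSub (J := A) r) => (z : A)) hyy
    calc Nat.card A = Nat.card ↥f.ker * Nat.card ↥f.range := h1.symm
      _ ≤ Nat.card ↥(torsSub (J := A) r) * Nat.card ↥(torsSub (J := A) r) ^ K := by
          rw [hker]
          exact Nat.mul_le_mul_left _ (h3.trans (Nat.pow_le_pow_left h4 K))
      _ = Nat.card ↥(torsSub (J := A) r) ^ (K + 1) := by rw [pow_succ, mul_comm]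

/-- the same for a subgroup of an ambient group -/
theorem card_le_card_inf_torsSub_pow {J : Type u} [AddCommGroup J] (r K : ℕ) (A : AddSubgroup J)
    [Finite ↥A] (h : ∀ x ∈ A, r ^ K • x = 0) :
    Nat.card ↥A ≤ Nat.card ↥(A ⊓ torsSub (J := J) r) ^ K := by
  have h1 := card_le_card_torsSub_pow r K ↥A (fun x => Subtype.ext (h x.1 x.2))
  have h2 : Nat.card ↥(torsSub (J := ↥A) r) ≤ Nat.card ↥(A ⊓ torsSub (J := J) r) := by
    haveI : Finite ↥(A ⊓ torsSub (J := J) r) :=
      Finite.of_injective (fun x : ↥(A ⊓ torsSub (J := J) r) => (⟨x.1, x.2.1⟩ : ↥A))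
        (fun x y hxy => Subtype.ext (congrArg (fun z : ↥A => (z : J)) hxy))
    refine Nat.card_le_card_of_injective
      (fun y : ↥(torsSub (J := ↥A) r) =>
        (⟨(y.1 : J), y.1.2, (mem_torsSub _).2 (by
          have := (mem_torsSub _).1 y.2
          exact congrArg (fun z : ↥A => (z : J)) this)⟩ : ↥(A ⊓ torsSub (J := J) r))) ?_
    intro y y' hyy
    apply Subtype.ext
    apply Subtype.ext
    exact congrArg (fun z : ↥(A ⊓ torsSub (J := J) r) => (z : J)) hyy
  exact h1.trans (Nat.pow_le_pow_left h2 K)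

/-- a finite group `M` which is the internal direct sum of `A` and `B` (given by an idempotent `e`) -/
theorem card_eq_mul_of_proj {J : Type u} [AddCommGroup J] (M A B : AddSubgroup J) (e : J →+ J)
    (hAM : A ≤ M) (hBM : B ≤ M) (heA : ∀ x ∈ M, e x ∈ A) (heid : ∀ x ∈ A, e x = x)
    (hB : ∀ x, x ∈ B ↔ x ∈ M ∧ e x = 0) :
    Nat.card ↥M = Nat.card ↥A * Nat.card ↥B := by
  rw [← Nat.card_prod]
  refine Nat.card_congr
    { toFun := fun x => (⟨e x.1, heA x.1 x.2⟩, ⟨x.1 - e x.1, (hB _).2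
        ⟨M.sub_mem x.2 (hAM (heA x.1 x.2)), by
          rw [map_sub, heid _ (heA x.1 x.2), sub_self]⟩⟩)
      invFun := fun ab => ⟨ab.1.1 + ab.2.1, M.add_mem (hAM ab.1.2) (hBM ab.2.2)⟩
      left_inv := fun x => Subtype.ext (by simp)
      right_inv := ?_ }
  rintro ⟨⟨a, ha⟩, ⟨b, hb⟩⟩
  have hb0 : e b = 0 := ((hB b).1 hb).2
  have hab : e (a + b) = a := by rw [map_add, heid a ha, hb0, add_zero]
  refine Prod.ext (Subtype.ext ?_) (Subtype.ext ?_)
  · exact hab
  · show a + b - e (a + b) = b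
    rw [hab, add_sub_cancel_left]

theorem eq_pow_of_mul_eq {a b a' b' K : ℕ} (ha : a ≤ a' ^ K) (hb : b ≤ b' ^ K)
    (hb0 : 0 < b) (h : a * b = (a' * b') ^ K) : a = a' ^ K := by
  rcases Nat.lt_or_ge a (a' ^ K) with hlt | hge
  · exfalso
    have h1 : a * b < a' ^ K * b := Nat.mul_lt_mul_of_pos_right hlt hb0
    have h2 : a' ^ K * b ≤ a' ^ K * b' ^ K := Nat.mul_le_mul_left _ hb
    rw [h, mul_pow] at h1
    omega
  · exact le_antisymm ha hge

/-- **abstract form**: a direct summand of a group with `|M| = |M[r]|^K` killed by `r^K`. -/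
theorem card_summand_eq_pow {J : Type u} [AddCommGroup J] (r K : ℕ) (hK : 1 ≤ K)
    [Finite ↥(torsSub (J := J) (r ^ K))]
    (hcard : Nat.card ↥(torsSub (J := J) (r ^ K)) = Nat.card ↥(torsSub (J := J) r) ^ K)
    (A : AddSubgroup J) (e : J →+ J) (hA : ∀ x ∈ A, r ^ K • x = 0)
    (heA : ∀ x, r ^ K • x = 0 → e x ∈ A) (heid : ∀ x ∈ A, e x = x) :
    Nat.card ↥A = Nat.card ↥(A ⊓ torsSub (J := J) r) ^ K := by
  classical
  set M : AddSubgroup J := torsSub (J := J) (r ^ K) with hM
  have hAM : A ≤ M := fun x hx => (mem_torsSub _).2 (hA x hx)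
  let B : AddSubgroup J := M ⊓ e.ker
  have hBM : B ≤ M := inf_le_left
  have hBmem : ∀ x, x ∈ B ↔ x ∈ M ∧ e x = 0 := fun x => by
    show x ∈ M ⊓ e.ker ↔ _
    rw [AddSubgroup.mem_inf, AddMonoidHom.mem_ker]
  have hrM : torsSub (J := J) r ≤ M := by
    intro x hx
    rw [mem_torsSub] at hx
    rw [hM, mem_torsSub]
    obtain ⟨K', rfl⟩ : ∃ K', K = K' + 1 := ⟨K - 1, by omega⟩
    rw [pow_succ, mul_nsmul', hx, smul_zero]
  haveI : Finite ↥A := Finite.of_injective (fun x : ↥A => (⟨x.1, hAM x.2⟩ : ↥M))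
    (fun x y hxy => Subtype.ext (congrArg (fun z : ↥M => (z : J)) hxy))
  haveI : Finite ↥B := Finite.of_injective (fun x : ↥B => (⟨x.1, hBM x.2⟩ : ↥M))
    (fun x y hxy => Subtype.ext (congrArg (fun z : ↥M => (z : J)) hxy))
  have h1 : Nat.card ↥M = Nat.card ↥A * Nat.card ↥B :=
    card_eq_mul_of_proj M A B e hAM hBM (fun x hx => heA x ((mem_torsSub _).1 hx)) heid hBmem
  -- the same on the `r`-torsion
  have hemem : ∀ x, r • x = 0 → r • e x = 0 := fun x hx => by rw [← map_nsmul, hx, map_zero]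
  have h2 : Nat.card ↥(torsSub (J := J) r) =
      Nat.card ↥(A ⊓ torsSub (J := J) r) * Nat.card ↥(B ⊓ torsSub (J := J) r) := by
    refine card_eq_mul_of_proj (torsSub (J := J) r) (A ⊓ torsSub (J := J) r)
      (B ⊓ torsSub (J := J) r) e inf_le_right inf_le_right ?_ ?_ ?_
    · intro x hx
      exact ⟨heA x ((mem_torsSub _).1 (hrM hx)), (mem_torsSub _).2 (hemem x ((mem_torsSub _).1 hx))⟩
    · intro x hx
      exact heid x hx.1
    · intro x
      constructor
      · rintro ⟨hxB, hxr⟩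
        exact ⟨hxr, ((hBmem x).1 hxB).2⟩
      · rintro ⟨hxr, hx0⟩
        exact ⟨(hBmem x).2 ⟨hrM hxr, hx0⟩, hxr⟩
  have h3 := card_le_card_inf_torsSub_pow r K A hA
  have h4 := card_le_card_inf_torsSub_pow r K B (fun x hx => (mem_torsSub _).1 (hBM hx))
  refine eq_pow_of_mul_eq h3 h4 Nat.card_pos ?_
  rw [← h1, ← h2, hcard]

/-! ### the Eisenstein part -/

section VE

variable {p : ℕ} [NeZero p]

theorem card_torsSub_pow {r : ℕ} (hr : r.Prime) (K : ℕ) :
    Nat.card ↥(torsSub (J := JZero p) (r ^ K)) = (r ^ K) ^ (comparisonDataAt p hr).r := by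
  haveI : NeZero (r ^ K) := ⟨pow_ne_zero K hr.ne_zero⟩
  let κ := (comparisonDataAt p hr).κ K
  have e1 : ↥(torsSub (J := JZero p) (r ^ K)) ≃ ↥(Tors p (r ^ K)) :=
    { toFun := fun x => ⟨x.1, mem_Tors_iff.2 ((mem_torsSub _).1 x.2)⟩
      invFun := fun x => ⟨x.1, (mem_torsSub _).2 (mem_Tors_iff.1 x.2)⟩
      left_inv := fun x => rfl
      right_inv := fun x => rfl }
  rw [Nat.card_congr e1, Nat.card_congr κ.toEquiv, Nat.card_fun, Nat.card_fin, Nat.card_zmod]

theorem VE_inf_torsSub {r K : ℕ} (hK : 1 ≤ K) :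
    VE p r K ⊓ torsSub (J := JZero p) r = VE p r 1 := by
  ext x
  constructor
  · rintro ⟨⟨-, hx2⟩, hxr⟩
    exact ⟨by rw [pow_one]; exact (mem_torsSub _).1 hxr, hx2⟩
  · rintro ⟨hx1, hx2⟩
    rw [pow_one] at hx1
    refine ⟨⟨?_, hx2⟩, (mem_torsSub _).2 hx1⟩
    obtain ⟨K', rfl⟩ : ∃ K', K = K' + 1 := ⟨K - 1, by omega⟩
    rw [pow_succ, mul_nsmul', hx1, smul_zero]

/-- **`|VE_K| = |VE_1|^K`** -/
theorem card_VE_pow {p : ℕ} (hp : p.Prime) {r : ℕ} (hr : r.Prime) (hrp : r ≠ p) (K : ℕ) :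
    haveI : NeZero p := ⟨hp.ne_zero⟩
    Nat.card ↥(VE p r K) = Nat.card ↥(VE p r 1) ^ K := by
  haveI : NeZero p := ⟨hp.ne_zero⟩
  rcases Nat.eq_zero_or_pos K with rfl | hK
  · rw [pow_zero]
    haveI : Subsingleton ↥(VE p r 0) := ⟨fun x y => by
      have hx := x.2.1
      have hy := y.2.1
      rw [pow_zero, one_nsmul] at hx hy
      exact Subtype.ext (by rw [hx, hy])⟩
    exact Nat.card_of_subsingleton (0 : ↥(VE p r 0))
  · obtain ⟨e, -, he1, he2⟩ := hProjStmt hp hr hrp K
    haveI := finite_torsSub (p := p) hr K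
    have hcard : Nat.card ↥(torsSub (J := JZero p) (r ^ K)) =
        Nat.card ↥(torsSub (J := JZero p) r) ^ K := by
      have h1 := card_torsSub_pow (p := p) hr K
      have h2 := card_torsSub_pow (p := p) hr 1
      rw [pow_one] at h2
      rw [h1, h2, ← pow_mul, ← pow_mul, mul_comm]
    have h := card_summand_eq_pow (J := JZero p) r K hK hcard (VE p r K) e
      (fun x hx => hx.1) he1 he2
    rw [VE_inf_torsSub hK] at h
    exact h

end VE

end Fermat.Agent.S15lib.Adm

end
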