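/-
S15lib / Adm / Frob  (helper3)  — Project E, block (ADM)

Weak Chebotarev + Eichler–Shimura on `J[r^K]`: every `g ∈ G_ℚ` generates, on `J[r^K]` and on `μ_r`,
the same cyclic group as a Frobenius element `φ` at a prime `ℓ ∤ p r`, and
`φ² x − T_ℓ (φ x) + ℓ x = 0` on `J[r^K]`, `χ_r(φ) = ℓ`.
-/
import Fermat.Agent.S15lib.Adm.Comm
import Fermat.Agent.S29lib.GH.LocalData
import Fermat.Agent.S29lib.X.Cyclo
import Fermat.Agent.S52lib.Glue.WeakChebGen

set_option autoImplicit false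
set_option linter.unusedSectionVars false
set_option linter.style.haveILetI false

noncomputable section

namespace Fermat.Agent.S15lib.Adm

open ModularCurve Fermat.Agent.S29lib Fermat.Agent.S35lib.New Fermat.Agent.ExtVan

local notation "Qb" => AlgebraicClosure ℚ
local notation "GQ" => (AlgebraicClosure ℚ ≃ₐ[ℚ] AlgebraicClosure ℚ)

variable {p : ℕ} [NeZero p]

/-- two elements of `G_ℚ` agreeing on the cyclotomic field have the same cyclotomic character -/
theorem cycloChar_eq_of_agree {r : ℕ} [Fact r.Prime] {g h : GQ}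
    (hgh : ∀ x ∈ cycloField r, g x = h x) :
    ExtCitation.cycloChar r g = ExtCitation.cycloChar r h := by
  have h1 : ∀ x ∈ cycloField r, (h⁻¹ * g) x = x := by
    intro x hx
    rw [AlgEquiv.mul_apply, hgh x hx]
    exact h.symm_apply_apply x
  have h2 : chi r (h⁻¹ * g) = 1 := (forall_mem_cycloField_iff (h⁻¹ * g)).1 h1
  have h3 : ExtCitation.cycloChar r (h⁻¹ * g) = 1 := Units.ext h2
  rw [map_mul, map_inv, inv_mul_eq_one] at h3
  exact h3.symm

/-- **weak Chebotarev + Eichler–Shimura on `J[r^K]`** -/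
theorem exists_frob (hp : p.Prime) {r : ℕ} [Fact r.Prime] (hrp : r ≠ p) (K : ℕ) (g : GQ) :
    ∃ (φ : GQ) (i j : ℕ) (ℓ : Nat.Primes), (ℓ : ℕ) ≠ p ∧
      (∀ x : JZero p, r ^ K • x = 0 → g • x = φ ^ j • x) ∧
      (∀ x : JZero p, r ^ K • x = 0 → φ • x = g ^ i • x) ∧
      ExtCitation.cycloChar r g = ExtCitation.cycloChar r φ ^ j ∧
      ExtCitation.cycloChar r φ = ExtCitation.cycloChar r g ^ i ∧
      chi r φ = ((ℓ : ℕ) : ZMod r) ∧
      ∀ x : JZero p, r ^ K • x = 0 → φ • φ • x - TJ p ℓ (φ • x) + (ℓ : ℕ) • x = 0 := by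
  classical
  have hr : r.Prime := Fact.out
  have LD : LocalData p r := GH.localData_of_comparisonData (comparisonDataAt p hr) hr.ne_zero
  obtain ⟨L₁, hL₁fin, hL₁⟩ := LD.finiteLevel K
  haveI := hL₁fin
  haveI : FiniteDimensional ℚ (cycloField r) :=
    IsCyclotomicExtension.finiteDimensional {r} ℚ (cycloField r)
  let L : IntermediateField ℚ Qb := L₁ ⊔ cycloField r
  haveI : FiniteDimensional ℚ L := IntermediateField.finiteDimensional_sup L₁ (cycloField r)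
  obtain ⟨ℓ, A, φ, i, j, hℓ, hℓS, hA, hφ, h5, h6⟩ :=
    Fermat.Agent.S52lib.Glue.exists_frobenius_generates_of_finite L g {p, r}
  have hℓp : ℓ ≠ p := fun h => hℓS (by rw [h]; exact Finset.mem_insert_self _ _)
  have hℓr : ℓ ≠ r := fun h => hℓS (by
    rw [h]; exact Finset.mem_insert_of_mem (Finset.mem_singleton_self _))
  have hL₁L : L₁ ≤ L := le_sup_left
  have hcL : cycloField r ≤ L := le_sup_right
  -- agreement on `L₁` gives agreement on the torsion
  have htors : ∀ a b : GQ, (∀ x ∈ L, a x = b x) → ∀ x : JZero p, r ^ K • x = 0 → a • x = b • x := by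
    intro a b hab x hx
    have h1 : ∀ y ∈ L₁, (b⁻¹ * a) y = y := by
      intro y hy
      rw [AlgEquiv.mul_apply, hab y (hL₁L hy)]
      exact b.symm_apply_apply y
    have h2 := hL₁ (b⁻¹ * a) h1 x (mem_Tors_iff.2 hx)
    rw [mul_smul, inv_smul_eq_iff] at h2
    exact h2
  refine ⟨φ, i, j, ⟨ℓ, hℓ⟩, hℓp, htors g (φ ^ j) h5, htors φ (g ^ i) h6, ?_, ?_, ?_, ?_⟩
  · rw [← map_pow]
    exact cycloChar_eq_of_agree fun x hx => h5 x (hcL hx)
  · rw [← map_pow]
    exact cycloChar_eq_of_agree fun x hx => h6 x (hcL hx)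
  · exact Fermat.Agent.S29lib.X.chi_of_isFrobeniusAt hℓ hℓr hA hφ
  · intro x hx
    have hnd : ¬ ℓ ∣ p * r := by
      intro h
      rcases (Nat.Prime.dvd_mul hℓ).1 h with h | h
      · exact hℓp ((Nat.prime_dvd_prime_iff_eq hℓ hp).1 h)
      · exact hℓr ((Nat.prime_dvd_prime_iff_eq hℓ hr).1 h)
    have h1 := LD.frob ℓ hℓ hnd A hA φ hφ K x (mem_Tors_iff.2 hx)
    have hℓp' : ¬ ((⟨ℓ, hℓ⟩ : Nat.Primes) : ℕ) ∣ p := fun h =>
      hℓp ((Nat.prime_dvd_prime_iff_eq hℓ hp).1 h)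
    show φ • φ • x - TJ p ⟨ℓ, hℓ⟩ (φ • x) + ℓ • x = 0
    rw [show TJ p ⟨ℓ, hℓ⟩ (φ • x) = heckeOperatorBar p ⟨ℓ, hℓ⟩ (φ • x) from
      H.TJ_good p ⟨ℓ, hℓ⟩ hℓp' (φ • x), ← natCast_zsmul]
    exact h1

end Fermat.Agent.S15lib.Adm

end
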