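/-
S15lib / Adm / Quot  (helper3)  — Project E, block (ADM)

The subquotient `X / Y` of a `G`-module `J` (`Y ≤ X` stable subgroups), as a type with its
`G`-action.
-/
import Mathlib

set_option autoImplicit false

noncomputable section

namespace Fermat.Agent.S15lib.Adm

/-- a pair `Y ≤ X` of `G`-stable subgroups -/
structure Pair (G J : Type*) [Group G] [AddCommGroup J] [DistribMulAction G J] where
  /-- the big subgroup -/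
  X : AddSubgroup J
  /-- the small subgroup -/
  Y : AddSubgroup J
  le : Y ≤ X
  stabX : ∀ (g : G), ∀ x ∈ X, g • x ∈ X
  stabY : ∀ (g : G), ∀ x ∈ Y, g • x ∈ Y

namespace Pair

variable {G J : Type*} [Group G] [AddCommGroup J] [DistribMulAction G J] (𝔭 : Pair G J)

/-- the subquotient `X / Y` -/
abbrev Q : Type _ := ↥𝔭.X ⧸ 𝔭.Y.addSubgroupOf 𝔭.X

/-- the class of a point of `X` -/
def cl : ↥𝔭.X →+ 𝔭.Q := QuotientAddGroup.mk' (𝔭.Y.addSubgroupOf 𝔭.X)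

theorem cl_surjective : Function.Surjective 𝔭.cl := QuotientAddGroup.mk'_surjective _

theorem cl_eq_zero_iff (x : ↥𝔭.X) : 𝔭.cl x = 0 ↔ (x : J) ∈ 𝔭.Y := by
  rw [cl, QuotientAddGroup.mk'_apply, QuotientAddGroup.eq_zero_iff, AddSubgroup.mem_addSubgroupOf]

/-- the action of `g` on `X` -/
def smulX (g : G) : ↥𝔭.X →+ ↥𝔭.X where
  toFun x := ⟨g • (x : J), 𝔭.stabX g x x.2⟩
  map_zero' := Subtype.ext (smul_zero g)
  map_add' x y := Subtype.ext (smul_add g (x : J) (y : J))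

/-- the action of `g` on `X / Y` -/
def smulQ (g : G) : 𝔭.Q →+ 𝔭.Q :=
  QuotientAddGroup.map (𝔭.Y.addSubgroupOf 𝔭.X) (𝔭.Y.addSubgroupOf 𝔭.X) (𝔭.smulX g) (by
    intro x hx
    rw [AddSubgroup.mem_comap, AddSubgroup.mem_addSubgroupOf]
    rw [AddSubgroup.mem_addSubgroupOf] at hx
    exact 𝔭.stabY g x hx)

theorem smulQ_cl (g : G) (x : ↥𝔭.X) : 𝔭.smulQ g (𝔭.cl x) = 𝔭.cl (𝔭.smulX g x) := rfl

/-- the action as a monoid homomorphism -/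
def rho : G →* AddMonoid.End 𝔭.Q where
  toFun g := 𝔭.smulQ g
  map_one' := by
    apply AddMonoidHom.ext
    intro s
    obtain ⟨x, rfl⟩ := 𝔭.cl_surjective s
    rw [smulQ_cl]
    show 𝔭.cl _ = 𝔭.cl x
    congr 1
    exact Subtype.ext (one_smul G (x : J))
  map_mul' g h := by
    apply AddMonoidHom.ext
    intro s
    obtain ⟨x, rfl⟩ := 𝔭.cl_surjective s
    show 𝔭.smulQ (g * h) (𝔭.cl x) = 𝔭.smulQ g (𝔭.smulQ h (𝔭.cl x))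
    rw [smulQ_cl, smulQ_cl, smulQ_cl]
    congr 1
    exact Subtype.ext (mul_smul g h (x : J))

instance : DistribMulAction G 𝔭.Q := DistribMulAction.compHom 𝔭.Q 𝔭.rho

theorem smul_cl (g : G) (x : ↥𝔭.X) : g • 𝔭.cl x = 𝔭.cl (𝔭.smulX g x) := rfl

theorem coe_smulX (g : G) (x : ↥𝔭.X) : ((𝔭.smulX g x : ↥𝔭.X) : J) = g • (x : J) := rfl

instance [Finite 𝔭.X] : Finite 𝔭.Q := Finite.of_surjective _ 𝔭.cl_surjective

theorem nontrivial_of_lt (h : 𝔭.Y < 𝔭.X) : Nontrivial 𝔭.Q := by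
  obtain ⟨x, hxX, hxY⟩ := SetLike.exists_of_lt h
  refine ⟨⟨𝔭.cl ⟨x, hxX⟩, 0, ?_⟩⟩
  rw [Ne, cl_eq_zero_iff]
  exact hxY

/-- the subgroup of `J` between `Y` and `X` attached to a subgroup of `X / Y` -/
def pre (H : AddSubgroup 𝔭.Q) : AddSubgroup J := (H.comap 𝔭.cl).map 𝔭.X.subtype

theorem mem_pre {H : AddSubgroup 𝔭.Q} {x : J} :
    x ∈ 𝔭.pre H ↔ ∃ hx : x ∈ 𝔭.X, 𝔭.cl ⟨x, hx⟩ ∈ H := by
  rw [pre, AddSubgroup.mem_map]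
  constructor
  · rintro ⟨y, hy, rfl⟩
    exact ⟨y.2, hy⟩
  · rintro ⟨hx, h⟩
    exact ⟨⟨x, hx⟩, h, rfl⟩

theorem pre_le (H : AddSubgroup 𝔭.Q) : 𝔭.pre H ≤ 𝔭.X := fun _ hx => (𝔭.mem_pre.1 hx).1

theorem le_pre (H : AddSubgroup 𝔭.Q) : 𝔭.Y ≤ 𝔭.pre H := by
  intro x hx
  refine 𝔭.mem_pre.2 ⟨𝔭.le hx, ?_⟩
  rw [(𝔭.cl_eq_zero_iff ⟨x, 𝔭.le hx⟩).2 hx]
  exact H.zero_mem

theorem pre_eq_Y_iff (H : AddSubgroup 𝔭.Q) : 𝔭.pre H = 𝔭.Y → H = ⊥ := by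
  intro h
  rw [eq_bot_iff]
  intro s hs
  obtain ⟨x, rfl⟩ := 𝔭.cl_surjective s
  rw [AddSubgroup.mem_bot, cl_eq_zero_iff, ← h]
  exact 𝔭.mem_pre.2 ⟨x.2, hs⟩

theorem pre_eq_X_iff (H : AddSubgroup 𝔭.Q) : 𝔭.pre H = 𝔭.X → H = ⊤ := by
  intro h
  rw [eq_top_iff]
  intro s _
  obtain ⟨x, rfl⟩ := 𝔭.cl_surjective s
  have : (x : J) ∈ 𝔭.pre H := by rw [h]; exact x.2
  obtain ⟨_, h2⟩ := 𝔭.mem_pre.1 this
  exact h2

theorem smul_mem_pre {H : AddSubgroup 𝔭.Q} (hH : ∀ g : G, ∀ s ∈ H, g • s ∈ H) (g : G) {x : J}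
    (hx : x ∈ 𝔭.pre H) : g • x ∈ 𝔭.pre H := by
  obtain ⟨hxX, h⟩ := 𝔭.mem_pre.1 hx
  refine 𝔭.mem_pre.2 ⟨𝔭.stabX g x hxX, ?_⟩
  have := hH g _ h
  rw [smul_cl] at this
  exact this

end Pair

end Fermat.Agent.S15lib.Adm

end
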