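/-
S15lib / Adm / Simple  (helper3)  — Project E, block (ADM)

**Mazur II.14, abstract form.**  `S` a finite nonzero abelian group killed by the prime `r`, with an
action of a group `G` without proper nonzero stable subgroups, `χ : G →* (ℤ/r)ˣ`.  Suppose every
`g ∈ G` generates, as far as the action on `S` and `χ` are concerned, the same cyclic group as an
element `φ` satisfying the Eichler–Shimura relation `φ² s + χ(φ) s = (1 + χ(φ)) φ s`
(weak Chebotarev).  Then `|S| = r` and `G` acts trivially or through `χ`.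
-/
import Mathlib

set_option autoImplicit false

noncomputable section

namespace Fermat.Agent.S15lib.Adm

open MulAction

variable {r : ℕ} [Fact r.Prime] {S : Type*} [AddCommGroup S]
  {G : Type*} [Group G] [DistribMulAction G S]

/-- congruent scalars act in the same way on a group killed by `r` -/
theorem nsmul_eq_of_modEq (hr : ∀ s : S, r • s = 0) {a b : ℕ} (h : a ≡ b [MOD r]) (s : S) :
    a • s = b • s := by
  wlog hab : a ≤ b generalizing a b
  · exact (this h.symm (le_of_not_ge hab)).symm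
  obtain ⟨c, hc⟩ := (Nat.modEq_iff_dvd' hab).1 h
  have : b = a + r * c := by omega
  rw [this, add_nsmul, mul_nsmul, hr, nsmul_zero, add_zero]

theorem pow_smul_eq_of_forall {g g' : G} (h : ∀ s : S, g • s = g' • s) (n : ℕ) (s : S) :
    g ^ n • s = g' ^ n • s := by
  induction n generalizing s with
  | zero => rw [pow_zero, pow_zero]
  | succ n ih => rw [pow_succ, pow_succ, mul_smul, mul_smul, h, ih]

/-- a unipotent Eichler–Shimura element has order dividing `r` -/
theorem pow_smul_eq_self_of_unipotent (hr : ∀ s : S, r • s = 0) {φ : G}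
    (h : ∀ s : S, φ • φ • s + s = 2 • φ • s) (s : S) : φ ^ r • s = s := by
  have hδ : φ • (φ • s - s) = φ • s - s := by
    rw [smul_sub, eq_sub_iff_add_eq]
    have := h s
    rw [two_nsmul] at this
    rw [sub_add_eq_add_sub, sub_eq_iff_eq_add, this]
  have key : ∀ n : ℕ, φ ^ n • s = s + n • (φ • s - s) := by
    intro n
    induction n with
    | zero => rw [pow_zero, one_smul, zero_nsmul, add_zero]
    | succ n ih =>
      rw [pow_succ', mul_smul, ih, smul_add, smul_nsmul_comm, hδ, succ_nsmul]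
      abel
  rw [key r, hr, add_zero]
where
  smul_nsmul_comm : ∀ {φ : G} {n : ℕ} {x : S}, φ • (n • x) = n • (φ • x) := by
    intro φ n x
    exact map_nsmul (DistribMulAction.toAddMonoidHom S φ) n x

variable (χ : G →* (ZMod r)ˣ)

/-- **Mazur II.14, abstract form** -/
theorem simple_piece [Finite S] [Nontrivial S] (hr : ∀ s : S, r • s = 0)
    (hsimple : ∀ H : AddSubgroup S, (∀ g : G, ∀ x ∈ H, g • x ∈ H) → H = ⊥ ∨ H = ⊤)
    (hWC : ∀ g : G, ∃ (φ : G) (i j : ℕ), (∀ s : S, g • s = φ ^ j • s) ∧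
      (∀ s : S, φ • s = g ^ i • s) ∧ χ g = χ φ ^ j ∧ χ φ = χ g ^ i ∧
      ∀ s : S, φ • φ • s + ((χ φ : ZMod r)).val • s = (1 + ((χ φ : ZMod r)).val) • φ • s) :
    Nat.card S = r ∧ ((∀ (g : G) (s : S), g • s = s) ∨
      (∀ (g : G) (s : S), g • s = ((χ g : ZMod r)).val • s)) := by
  classical
  have hrp : r.Prime := Fact.out
  haveI : Fact (1 < r) := ⟨hrp.one_lt⟩
  -- Step 1: the kernel of `χ` acts through elements of order dividing `r`
  have hstep1 : ∀ h : G, χ h = 1 → ∀ s : S, h ^ r • s = s := by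
    intro h hh s
    obtain ⟨φ, i, j, h1, -, -, h4, h5⟩ := hWC h
    have hφ1 : χ φ = 1 := by rw [h4, hh, one_pow]
    have hval : ((χ φ : ZMod r)).val = 1 := by rw [hφ1, Units.val_one, ZMod.val_one]
    have hES : ∀ s : S, φ • φ • s + s = 2 • φ • s := by
      intro s
      have := h5 s
      rw [hval, one_nsmul] at this
      exact this
    rw [pow_smul_eq_of_forall h1 r s, ← pow_mul, mul_comm, pow_mul]
    have h6 : ∀ s : S, φ ^ r • s = (1 : G) • s := fun s => by
      rw [one_smul]; exact pow_smul_eq_self_of_unipotent hr hES s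
    rw [pow_smul_eq_of_forall h6 j s, one_pow, one_smul]
  -- Step 2: a nonzero vector fixed by the kernel of `χ`
  let H : Subgroup G := χ.ker
  let P : Subgroup (Equiv.Perm S) := H.map (MulAction.toPermHom G S)
  have hP : IsPGroup r P := by
    rintro ⟨π, hπ⟩
    obtain ⟨h, hh, rfl⟩ := Subgroup.mem_map.1 hπ
    refine ⟨1, Subtype.ext ?_⟩
    rw [pow_one]
    show (MulAction.toPermHom G S h) ^ r = 1
    rw [← map_pow]
    ext s
    exact hstep1 h (MonoidHom.mem_ker.1 hh) s
  have hcardS : r ∣ Nat.card S := by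
    obtain ⟨s₀, hs₀⟩ := exists_ne (0 : S)
    have hord : addOrderOf s₀ = r := by
      have hdvd : addOrderOf s₀ ∣ r := addOrderOf_dvd_of_nsmul_eq_zero (hr s₀)
      rcases (Nat.dvd_prime hrp).1 hdvd with h1 | h1
      · exact absurd (AddMonoid.addOrderOf_eq_one_iff.1 h1) hs₀
      · exact h1
    rw [← hord]
    exact addOrderOf_dvd_natCard s₀
  have h0fix : (0 : S) ∈ fixedPoints P S := by
    rintro ⟨π, hπ⟩
    obtain ⟨h, -, rfl⟩ := Subgroup.mem_map.1 hπ
    show h • (0 : S) = 0
    exact smul_zero h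
  obtain ⟨s₁, hs₁fix, hs₁⟩ := hP.exists_fixed_point_of_prime_dvd_card_of_fixed_point S hcardS h0fix
  -- Step 3: the kernel of `χ` acts trivially
  let F : AddSubgroup S :=
    { carrier := {s | ∀ h : G, χ h = 1 → h • s = s}
      zero_mem' := fun h _ => smul_zero h
      add_mem' := fun {a b} ha hb h hh => by rw [smul_add, ha h hh, hb h hh]
      neg_mem' := fun {a} ha h hh => by rw [smul_neg, ha h hh] }
  have hFstab : ∀ g : G, ∀ x ∈ F, g • x ∈ F := by
    intro g x hx h hh
    have h1 : χ (g⁻¹ * h * g) = 1 := by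
      rw [map_mul, map_mul, hh, mul_one, map_inv, inv_mul_cancel]
    have h2 := hx _ h1
    rw [mul_smul, mul_smul] at h2
    have h3 := congrArg (fun y => g • y) h2
    simp only [smul_inv_smul] at h3
    exact h3
  have hs₁F : s₁ ∈ F := by
    intro h hh
    have hmem : MulAction.toPermHom G S h ∈ P := Subgroup.mem_map.2 ⟨h, MonoidHom.mem_ker.2 hh, rfl⟩
    exact hs₁fix ⟨_, hmem⟩
  have hFtop : F = ⊤ := by
    rcases hsimple F hFstab with h | h
    · exfalso
      rw [h, AddSubgroup.mem_bot] at hs₁F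
      exact hs₁ hs₁F.symm
    · exact h
  have hker : ∀ h : G, χ h = 1 → ∀ s : S, h • s = s := by
    intro h hh s
    have : s ∈ F := by rw [hFtop]; trivial
    exact this h hh
  -- Step 4: the action only depends on `χ`
  have hdep : ∀ g g' : G, χ g = χ g' → ∀ s : S, g • s = g' • s := by
    intro g g' hgg s
    have h1 : χ (g⁻¹ * g') = 1 := by rw [map_mul, map_inv, hgg, inv_mul_cancel]
    have h2 := hker _ h1 s
    rw [mul_smul] at h2
    have h3 := congrArg (fun y => g • y) h2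
    simp only [smul_inv_smul] at h3
    exact h3.symm
  -- Step 5: a generator of `χ(G)` and its Frobenius
  obtain ⟨g₀, hg₀⟩ : ∃ g₀ : G, ∀ g : G, ∃ k : ℕ, χ g = χ g₀ ^ k := by
    haveI : IsCyclic χ.range := Subgroup.isCyclic _
    obtain ⟨⟨c, hc⟩, hgen⟩ := IsCyclic.exists_generator (α := χ.range)
    obtain ⟨g₀, rfl⟩ := MonoidHom.mem_range.1 hc
    refine ⟨g₀, fun g => ?_⟩
    obtain ⟨k, hk⟩ := Subgroup.mem_zpowers_iff.1 (hgen ⟨χ g, MonoidHom.mem_range.2 ⟨g, rfl⟩⟩)
    have hk' : χ g₀ ^ k = χ g := by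
      have := congrArg (fun z : χ.range => (z : (ZMod r)ˣ)) hk
      simpa using this
    have hfin : IsOfFinOrder (χ g₀) := isOfFinOrder_of_finite _
    obtain ⟨n, hn⟩ := (hfin.mem_powers_iff_mem_zpowers).2 (Subgroup.mem_zpowers_iff.2 ⟨k, hk'⟩)
    exact ⟨n, hn.symm⟩
  obtain ⟨φ₀, i₀, j₀, -, -, h3₀, -, hES⟩ := hWC g₀
  have hact : ∀ g : G, ∃ n : ℕ, χ g = χ φ₀ ^ n ∧ ∀ s : S, g • s = φ₀ ^ n • s := by
    intro g
    obtain ⟨k, hk⟩ := hg₀ g
    refine ⟨j₀ * k, ?_, ?_⟩
    · rw [hk, h3₀, pow_mul]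
    · refine hdep g (φ₀ ^ (j₀ * k)) ?_
      rw [map_pow, hk, h3₀, pow_mul]
  set ℓ : ℕ := ((χ φ₀ : ZMod r)).val with hℓ
  -- Step 6: an eigenvector of `φ₀`
  obtain ⟨t, ht0, c, hc, hct⟩ : ∃ t : S, t ≠ 0 ∧ ∃ c : ℕ, (c = 1 ∨ c = ℓ) ∧ φ₀ • t = c • t := by
    by_cases hA : ∀ s : S, φ₀ • s = s
    · obtain ⟨s₀, hs₀⟩ := exists_ne (0 : S)
      exact ⟨s₀, hs₀, 1, Or.inl rfl, by rw [hA, one_nsmul]⟩
    · push_neg at hA
      obtain ⟨s, hs⟩ := hA
      refine ⟨φ₀ • s - s, sub_ne_zero.2 hs, ℓ, Or.inr rfl, ?_⟩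
      have h1 := hES s
      rw [smul_sub, nsmul_sub, eq_sub_iff_add_eq]
      rw [add_nsmul, one_nsmul] at h1
      rw [sub_add_eq_add_sub, sub_eq_iff_eq_add, h1]
      abel
  -- the line through `t` is everything
  have hpow : ∀ n : ℕ, φ₀ ^ n • t = c ^ n • t := by
    intro n
    induction n with
    | zero => rw [pow_zero, pow_zero, one_smul, one_nsmul]
    | succ n ih =>
      rw [pow_succ, mul_smul, hct, pow_succ, mul_nsmul]
      rw [show φ₀ ^ n • c • t = c • φ₀ ^ n • t from
        map_nsmul (DistribMulAction.toAddMonoidHom S (φ₀ ^ n)) c t, ih]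
  have hlstab : ∀ g : G, ∀ x ∈ AddSubgroup.zmultiples t, g • x ∈ AddSubgroup.zmultiples t := by
    intro g x hx
    obtain ⟨m, rfl⟩ := AddSubgroup.mem_zmultiples_iff.1 hx
    obtain ⟨n, -, hn⟩ := hact g
    rw [hn, show φ₀ ^ n • m • t = m • φ₀ ^ n • t from
      map_zsmul (DistribMulAction.toAddMonoidHom S (φ₀ ^ n)) m t, hpow]
    exact (AddSubgroup.zmultiples t).zsmul_mem
      ((AddSubgroup.zmultiples t).nsmul_mem (AddSubgroup.mem_zmultiples t) _) m
  have hline : AddSubgroup.zmultiples t = ⊤ := by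
    rcases hsimple (AddSubgroup.zmultiples t) hlstab with h | h
    · exfalso
      have : t ∈ AddSubgroup.zmultiples t := AddSubgroup.mem_zmultiples t
      rw [h, AddSubgroup.mem_bot] at this
      exact ht0 this
    · exact h
  have hall : ∀ s : S, ∃ m : ℤ, s = m • t := by
    intro s
    have : s ∈ AddSubgroup.zmultiples t := by rw [hline]; trivial
    obtain ⟨m, hm⟩ := AddSubgroup.mem_zmultiples_iff.1 this
    exact ⟨m, hm.symm⟩
  have hcard : Nat.card S = r := by
    have hord : addOrderOf t = r := by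
      have hdvd : addOrderOf t ∣ r := addOrderOf_dvd_of_nsmul_eq_zero (hr t)
      rcases (Nat.dvd_prime hrp).1 hdvd with h1 | h1
      · exact absurd (AddMonoid.addOrderOf_eq_one_iff.1 h1) ht0
      · exact h1
    rw [← hord, ← Nat.card_zmultiples, hline]
    exact (Nat.card_congr (Equiv.Set.univ S)).symm
  have hφall : ∀ (n : ℕ) (s : S), φ₀ ^ n • s = c ^ n • s := by
    intro n s
    obtain ⟨m, rfl⟩ := hall s
    rw [show φ₀ ^ n • m • t = m • φ₀ ^ n • t from
      map_zsmul (DistribMulAction.toAddMonoidHom S (φ₀ ^ n)) m t, hpow, ← natCast_zsmul,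
      ← natCast_zsmul, smul_smul, smul_smul, mul_comm]
  refine ⟨hcard, ?_⟩
  rcases hc with rfl | rfl
  · left
    intro g s
    obtain ⟨n, -, hn⟩ := hact g
    rw [hn, hφall, one_pow, one_nsmul]
  · right
    intro g s
    obtain ⟨n, hχ, hn⟩ := hact g
    rw [hn, hφall]
    refine nsmul_eq_of_modEq hr ?_ s
    rw [← ZMod.natCast_eq_natCast_iff, Nat.cast_pow, hℓ, ZMod.natCast_val, ZMod.natCast_val,
      ZMod.cast_id, ZMod.cast_id, hχ, Units.val_pow_eq_pow_val]

end Fermat.Agent.S15lib.Adm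

end
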