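/-
S15lib / Adm / Stab  (helper3)  — Project E, block (ADM)

Stable subgroups of `J = J₀(p)(ℚ̄)` (under `G_ℚ` and the `T_q`, `q ≠ p`); `VE p r K` is stable; on a
maximal step `Y < X ≤ VE` of stable subgroups, `r` and all `η_q` map `X` into `Y`.
-/
import Fermat.Agent.S15lib.Desc.Iface
import Fermat.Agent.S15lib.Adm.HProj
import Fermat.Agent.S15lib.Adm.Chain

set_option autoImplicit false
set_option linter.unusedSectionVars false
set_option linter.style.haveILetI false

noncomputable section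

namespace Fermat.Agent.S15lib.Adm

open ModularCurve Fermat.Agent.S29lib Fermat.Agent.S15lib.Desc

local notation "Qb" => AlgebraicClosure ℚ
local notation "GQ" => (AlgebraicClosure ℚ ≃ₐ[ℚ] AlgebraicClosure ℚ)

variable {p : ℕ} [NeZero p]

/-- stable under `G_ℚ` and the Hecke operators `T_q`, `q ≠ p` -/
def IsStab (p : ℕ) [NeZero p] (X : AddSubgroup (JZero p)) : Prop :=
  (∀ σ : GQ, ∀ x ∈ X, σ • x ∈ X) ∧ ∀ q : Nat.Primes, (q : ℕ) ≠ p → ∀ x ∈ X, TJ p q x ∈ X

theorem galois_smul_zero (σ : GQ) : σ • (0 : JZero p) = 0 :=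
  map_zero (DistribSMul.toAddMonoidHom (JZero p) σ)

theorem isStab_bot : IsStab p (⊥ : AddSubgroup (JZero p)) := by
  refine ⟨fun σ x hx => ?_, fun q _ x hx => ?_⟩
  · rw [AddSubgroup.mem_bot] at hx ⊢
    rw [hx]
    exact galois_smul_zero σ
  · rw [AddSubgroup.mem_bot] at hx ⊢
    rw [hx, map_zero]

theorem galois_nsmul (σ : GQ) (n : ℕ) (x : JZero p) : σ • (n • x) = n • (σ • x) :=
  map_nsmul (DistribSMul.toAddMonoidHom (JZero p) σ) n x

theorem eta_galois (q : Nat.Primes) (σ : GQ) (x : JZero p) :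
    eta p q (σ • x) = σ • eta p q x := by
  rw [eta_apply, eta_apply, smul_sub, galois_nsmul]
  congr 1
  exact Fermat.Agent.S29lib.GH.TJ_galois p q σ x

theorem eta_pow_galois (q : Nat.Primes) (j : ℕ) (σ : GQ) (x : JZero p) :
    (eta p q ^ j) (σ • x) = σ • (eta p q ^ j) x := by
  induction j generalizing x with
  | zero => rfl
  | succ j ih =>
    rw [pow_succ]
    show (eta p q ^ j) (eta p q (σ • x)) = σ • (eta p q ^ j) (eta p q x)
    rw [eta_galois, ih]

theorem eta_isStab {X : AddSubgroup (JZero p)} (hX : IsStab p X) (q : Nat.Primes)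
    (hq : (q : ℕ) ≠ p) {x : JZero p} (hx : x ∈ X) : eta p q x ∈ X := by
  rw [eta_apply]
  exact X.sub_mem (hX.2 q hq x hx) (X.nsmul_mem hx _)

/-- `η_q` and `T_q'` commute on the torsion -/
theorem eta_TJ_comm (hp : p.Prime) {q q' : Nat.Primes} (hq : (q : ℕ) ≠ p) (hq' : (q' : ℕ) ≠ p)
    {r : ℕ} (hr : r.Prime) (K : ℕ) {x : JZero p} (hx : r ^ K • x = 0) :
    eta p q (TJ p q' x) = TJ p q' (eta p q x) := by
  rw [eta_apply, eta_apply, map_sub, map_nsmul, TJ_comm_of_pow_smul hp hq hq' hr K hx]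

theorem pow_smul_eta_eq_zero (q : Nat.Primes) {n : ℕ} {x : JZero p} (hx : n • x = 0) :
    n • eta p q x = 0 := by
  rw [← map_nsmul, hx, map_zero]

theorem pow_smul_TJ_eq_zero (q : Nat.Primes) {n : ℕ} {x : JZero p} (hx : n • x = 0) :
    n • TJ p q x = 0 := by
  rw [← map_nsmul, hx, map_zero]

theorem eta_pow_TJ_comm (hp : p.Prime) {q q' : Nat.Primes} (hq : (q : ℕ) ≠ p) (hq' : (q' : ℕ) ≠ p)
    {r : ℕ} (hr : r.Prime) (K : ℕ) (j : ℕ) {x : JZero p} (hx : r ^ K • x = 0) :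
    (eta p q ^ j) (TJ p q' x) = TJ p q' ((eta p q ^ j) x) := by
  induction j generalizing x with
  | zero => rfl
  | succ j ih =>
    rw [pow_succ]
    show (eta p q ^ j) (eta p q (TJ p q' x)) = TJ p q' ((eta p q ^ j) (eta p q x))
    rw [eta_TJ_comm hp hq hq' hr K hx, ih (pow_smul_eta_eq_zero q hx)]

/-- **`VE p r K` is stable** -/
theorem isStab_VE (hp : p.Prime) {r : ℕ} (hr : r.Prime) (K : ℕ) : IsStab p (VE p r K) := by
  refine ⟨fun σ x hx => ⟨?_, fun q hq => ?_⟩, fun q' hq' x hx => ⟨?_, fun q hq => ?_⟩⟩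
  · rw [← galois_nsmul, hx.1]
    exact galois_smul_zero σ
  · obtain ⟨j, hj⟩ := hx.2 q hq
    exact ⟨j, by rw [eta_pow_galois, hj]; exact galois_smul_zero σ⟩
  · exact pow_smul_TJ_eq_zero q' hx.1
  · obtain ⟨j, hj⟩ := hx.2 q hq
    exact ⟨j, by rw [eta_pow_TJ_comm hp hq hq' hr K j hx.1, hj, map_zero]⟩

theorem finite_VE {r : ℕ} (hr : r.Prime) (K : ℕ) : Finite ↥(VE p r K) := by
  haveI := finite_torsSub (p := p) hr K
  exact Finite.of_injective
    (fun x : ↥(VE p r K) => (⟨x.1, (mem_torsSub _).2 x.2.1⟩ : ↥(torsSub (J := JZero p) (r ^ K))))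
    (fun a b h => Subtype.ext (congrArg (fun t : ↥(torsSub (J := JZero p) (r ^ K)) => (t : JZero p)) h))

/-! ### nilpotent stable endomorphisms kill maximal steps -/

/-- an additive endomorphism `f` commuting with `G_ℚ` and (on `X`) with the `T_q`, nilpotent on
`X`, maps `X` into `Y` for every maximal step `Y < X` of stable subgroups -/
theorem map_le_of_isMaxStep {X Y : AddSubgroup (JZero p)} [Finite X] (hX : IsStab p X)
    (hY : IsStab p Y) (hstep : IsMaxStep (IsStab p) Y X) (f : AddMonoid.End (JZero p))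
    (hfX : ∀ x ∈ X, f x ∈ X) (hfY : ∀ x ∈ Y, f x ∈ Y)
    (hfσ : ∀ (σ : GQ) (x : JZero p), f (σ • x) = σ • f x)
    (hfT : ∀ q : Nat.Primes, (q : ℕ) ≠ p → ∀ x ∈ X, f (TJ p q x) = TJ p q (f x))
    (hnil : ∀ x ∈ X, ∃ j : ℕ, (f ^ j) x = 0) : ∀ x ∈ X, f x ∈ Y := by
  classical
  -- the stable subgroup `Z = Y + f(X)`
  let Z : AddSubgroup (JZero p) := Y ⊔ X.map f
  have hZmem : ∀ z, z ∈ Z ↔ ∃ y ∈ Y, ∃ x ∈ X, z = y + f x := by
    intro z
    rw [AddSubgroup.mem_sup]
    constructor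
    · rintro ⟨y, hy, w, hw, rfl⟩
      obtain ⟨x, hx, rfl⟩ := AddSubgroup.mem_map.1 hw
      exact ⟨y, hy, x, hx, rfl⟩
    · rintro ⟨y, hy, x, hx, rfl⟩
      exact ⟨y, hy, f x, AddSubgroup.mem_map.2 ⟨x, hx, rfl⟩, rfl⟩
  have hZstab : IsStab p Z := by
    refine ⟨fun σ z hz => ?_, fun q hq z hz => ?_⟩
    · obtain ⟨y, hy, x, hx, rfl⟩ := (hZmem z).1 hz
      refine (hZmem _).2 ⟨σ • y, hY.1 σ y hy, σ • x, hX.1 σ x hx, ?_⟩
      rw [smul_add, hfσ]
    · obtain ⟨y, hy, x, hx, rfl⟩ := (hZmem z).1 hz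
      refine (hZmem _).2 ⟨TJ p q y, hY.2 q hq y hy, TJ p q x, hX.2 q hq x hx, ?_⟩
      rw [map_add, hfT q hq x hx]
  have hYZ : Y ≤ Z := le_sup_left
  have hZX : Z ≤ X := by
    refine sup_le hstep.1.le ?_
    rintro w hw
    obtain ⟨x, hx, rfl⟩ := AddSubgroup.mem_map.1 hw
    exact hfX x hx
  rcases hstep.2 Z hZstab hYZ hZX with hZ | hZ
  · intro x hx
    rw [← hZ]
    exact (hZmem _).2 ⟨0, Y.zero_mem, x, hx, by rw [zero_add]⟩
  · exfalso
    -- `X ≤ Y + f^n (X)` for all `n`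
    have hiter : ∀ n : ℕ, ∀ x ∈ X, ∃ y ∈ Y, ∃ x' ∈ X, x = y + (f ^ n) x' := by
      intro n
      induction n with
      | zero => intro x hx; exact ⟨0, Y.zero_mem, x, hx, by rw [zero_add]; rfl⟩
      | succ n ih =>
        intro x hx
        obtain ⟨y, hy, x', hx', rfl⟩ := ih x hx
        have hx'Z : x' ∈ Z := by rw [hZ]; exact hx'
        obtain ⟨y', hy', x'', hx'', rfl⟩ := (hZmem x').1 hx'Z
        have hfnY : ∀ (m : ℕ), ∀ w ∈ Y, (f ^ m) w ∈ Y := by
          intro m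
          induction m with
          | zero => intro w hw; exact hw
          | succ m ihm =>
            intro w hw
            rw [pow_succ]
            exact ihm _ (hfY w hw)
        refine ⟨y + (f ^ n) y', Y.add_mem hy (hfnY n y' hy'), x'', hx'', ?_⟩
        rw [map_add, pow_succ]
        show y + ((f ^ n) y' + (f ^ n) (f x'')) = y + (f ^ n) y' + (f ^ n) (f x'')
        rw [add_assoc]
    -- uniform nilpotency
    haveI : Fintype X := Fintype.ofFinite X
    choose! j hj using hnil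
    let N : ℕ := Finset.univ.sup fun x : X => j x
    have hN : ∀ x ∈ X, (f ^ N) x = 0 := by
      intro x hx
      have hle : j x ≤ N := Finset.le_sup (f := fun x : X => j x) (Finset.mem_univ ⟨x, hx⟩)
      obtain ⟨d, hd⟩ := Nat.exists_eq_add_of_le hle
      rw [hd, add_comm, pow_add]
      show (f ^ d) ((f ^ j x) x) = 0
      rw [hj x hx, map_zero]
    have hXY : X ≤ Y := by
      intro x hx
      obtain ⟨y, hy, x', hx', rfl⟩ := hiter N x hx
      rw [hN x' hx', add_zero]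
      exact hy
    exact absurd (le_antisymm hXY hstep.1.le) (ne_of_gt hstep.1)

theorem natCast_pow_apply {M : Type*} [AddCommGroup M] (r K : ℕ) (x : M) :
    (((r : ℕ) : AddMonoid.End M) ^ K) x = r ^ K • x := by
  induction K generalizing x with
  | zero => rw [pow_zero, pow_zero, one_nsmul]; rfl
  | succ K ih =>
    rw [pow_succ, pow_succ]
    show (((r : ℕ) : AddMonoid.End M) ^ K) (((r : ℕ) : AddMonoid.End M) x) = _
    rw [ih, AddMonoid.End.natCast_apply, ← mul_nsmul']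

/-- on a maximal step inside `VE`, `r` maps `X` into `Y` -/
theorem smul_mem_of_isMaxStep {r K : ℕ} {X Y : AddSubgroup (JZero p)} [Finite X]
    (hX : IsStab p X) (hY : IsStab p Y) (hstep : IsMaxStep (IsStab p) Y X) (hXV : X ≤ VE p r K) :
    ∀ x ∈ X, r • x ∈ Y := by
  have h := map_le_of_isMaxStep hX hY hstep ((r : ℕ) : AddMonoid.End (JZero p))
    (fun x hx => by rw [AddMonoid.End.natCast_apply]; exact X.nsmul_mem hx _)
    (fun x hx => by rw [AddMonoid.End.natCast_apply]; exact Y.nsmul_mem hx _)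
    (fun σ x => by rw [AddMonoid.End.natCast_apply, AddMonoid.End.natCast_apply, galois_nsmul])
    (fun q _ x _ => by rw [AddMonoid.End.natCast_apply, AddMonoid.End.natCast_apply, map_nsmul])
    (fun x hx => ⟨K, by
      rw [natCast_pow_apply]
      exact (hXV hx).1⟩)
  intro x hx
  have := h x hx
  rwa [AddMonoid.End.natCast_apply] at this

/-- on a maximal step inside `VE`, every `η_q` maps `X` into `Y` -/
theorem eta_mem_of_isMaxStep (hp : p.Prime) {r : ℕ} (hr : r.Prime) {K : ℕ}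
    {X Y : AddSubgroup (JZero p)} [Finite X]
    (hX : IsStab p X) (hY : IsStab p Y) (hstep : IsMaxStep (IsStab p) Y X) (hXV : X ≤ VE p r K)
    (q : Nat.Primes) (hq : (q : ℕ) ≠ p) : ∀ x ∈ X, eta p q x ∈ Y :=
  map_le_of_isMaxStep hX hY hstep (eta p q)
    (fun x hx => eta_isStab hX q hq hx) (fun x hx => eta_isStab hY q hq hx)
    (fun σ x => eta_galois q σ x)
    (fun q' hq' x hx => eta_TJ_comm hp hq hq' hr K (hXV hx).1)
    (fun x hx => (hXV hx).2 q hq)

end Fermat.Agent.S15lib.Adm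

end
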