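/-
S15lib / Adm / Piece  (helper3)  — Project E, block (ADM)

A maximal step `Y < X ≤ VE p r K` of stable subgroups is an `𝔽_r`-piece or a `μ_r`-piece:
`X / Y` is a simple `G_ℚ`-module killed by `r` and by the `η_q`, Eichler–Shimura + weak Chebotarev
(`Adm/Frob.lean`) feed the abstract lemma `simple_piece` (`Adm/Simple.lean`).
-/
import Fermat.Agent.S15lib.Adm.Stab
import Fermat.Agent.S15lib.Adm.Quot
import Fermat.Agent.S15lib.Adm.Simple
import Fermat.Agent.S15lib.Adm.Frob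

set_option autoImplicit false
set_option linter.unusedSectionVars false
set_option linter.style.haveILetI false

noncomputable section

namespace Fermat.Agent.S15lib.Adm

open ModularCurve Fermat.Agent.S29lib Fermat.Agent.S15lib.Desc Fermat.Agent.ExtVan

local notation "Qb" => AlgebraicClosure ℚ
local notation "GQ" => (AlgebraicClosure ℚ ≃ₐ[ℚ] AlgebraicClosure ℚ)

variable {p : ℕ} [NeZero p]

theorem TJ_eq_eta_add (q : Nat.Primes) (x : JZero p) :
    TJ p q x = eta p q x + (1 + (q : ℕ)) • x := by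
  rw [eta_apply, sub_add_cancel]

/-- the structure of a maximal step -/
theorem exists_piece_data_pair (hp : p.Prime) {r : ℕ} [Fact r.Prime] (hrp : r ≠ p) {K : ℕ}
    (𝔭 : Pair GQ (JZero p)) (hX : IsStab p 𝔭.X) (hY : IsStab p 𝔭.Y)
    (hstep : IsMaxStep (IsStab p) 𝔭.Y 𝔭.X) (hXV : 𝔭.X ≤ VE p r K) :
    ∃ ι : JZero p → ZMod r,
      (∀ x ∈ 𝔭.X, ∀ y ∈ 𝔭.X, ι (x + y) = ι x + ι y) ∧ (∀ x ∈ 𝔭.X, ι x = 0 ↔ x ∈ 𝔭.Y) ∧
      ((∀ (g : GQ), ∀ x ∈ 𝔭.X, ι (g • x) = ι x) ∨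
        (∀ (g : GQ), ∀ x ∈ 𝔭.X, ι (g • x) = chi r g * ι x)) := by
  classical
  have hr : r.Prime := Fact.out
  haveI : Finite ↥(VE p r K) := finite_VE hr K
  haveI : Finite 𝔭.X := Finite.of_injective (fun x : 𝔭.X => (⟨x.1, hXV x.2⟩ : ↥(VE p r K)))
    (fun a b h => Subtype.ext (congrArg (fun t : ↥(VE p r K) => (t : JZero p)) h))
  have hkr := smul_mem_of_isMaxStep hX hY hstep hXV
  have hkη := fun q hq => eta_mem_of_isMaxStep hp hr hX hY hstep hXV q hq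
  haveI : Nontrivial 𝔭.Q := 𝔭.nontrivial_of_lt hstep.1
  -- killed by `r`
  have hQr : ∀ s : 𝔭.Q, r • s = 0 := by
    intro s
    obtain ⟨x, rfl⟩ := 𝔭.cl_surjective s
    rw [← map_nsmul, Pair.cl_eq_zero_iff]
    exact hkr x x.2
  -- simple
  have hsimple : ∀ H : AddSubgroup 𝔭.Q, (∀ g : GQ, ∀ x ∈ H, g • x ∈ H) → H = ⊥ ∨ H = ⊤ := by
    intro H hH
    have hZ : IsStab p (𝔭.pre H) := by
      refine ⟨fun σ z hz => 𝔭.smul_mem_pre hH σ hz, fun q hq z hz => ?_⟩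
      rw [TJ_eq_eta_add]
      refine (𝔭.pre H).add_mem (𝔭.le_pre H (hkη q hq z (𝔭.pre_le H hz))) ?_
      exact (𝔭.pre H).nsmul_mem hz _
    rcases hstep.2 (𝔭.pre H) hZ (𝔭.le_pre H) (𝔭.pre_le H) with h | h
    · exact Or.inl (𝔭.pre_eq_Y_iff H h)
    · exact Or.inr (𝔭.pre_eq_X_iff H h)
  -- weak Chebotarev + Eichler–Shimura
  have hXtors : ∀ x : ↥𝔭.X, r ^ K • (x : JZero p) = 0 := fun x => (hXV x.2).1
  have hWC : ∀ g : GQ, ∃ (φ : GQ) (i j : ℕ), (∀ s : 𝔭.Q, g • s = φ ^ j • s) ∧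
      (∀ s : 𝔭.Q, φ • s = g ^ i • s) ∧
      ExtCitation.cycloChar r g = ExtCitation.cycloChar r φ ^ j ∧
      ExtCitation.cycloChar r φ = ExtCitation.cycloChar r g ^ i ∧
      ∀ s : 𝔭.Q, φ • φ • s + ((ExtCitation.cycloChar r φ : ZMod r)).val • s =
        (1 + ((ExtCitation.cycloChar r φ : ZMod r)).val) • φ • s := by
    intro g
    obtain ⟨φ, i, j, ℓ, hℓp, h1, h2, h3, h4, h5, h6⟩ := exists_frob hp hrp K g
    refine ⟨φ, i, j, ?_, ?_, h3, h4, ?_⟩
    · intro s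
      obtain ⟨x, rfl⟩ := 𝔭.cl_surjective s
      rw [Pair.smul_cl, Pair.smul_cl]
      congr 1
      exact Subtype.ext (h1 x (hXtors x))
    · intro s
      obtain ⟨x, rfl⟩ := 𝔭.cl_surjective s
      rw [Pair.smul_cl, Pair.smul_cl]
      congr 1
      exact Subtype.ext (h2 x (hXtors x))
    · intro s
      obtain ⟨x, rfl⟩ := 𝔭.cl_surjective s
      -- the relation in `J`
      have hES := h6 x (hXtors x)
      have hφx : φ • (x : JZero p) ∈ 𝔭.X := hX.1 φ x x.2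
      rw [TJ_eq_eta_add] at hES
      -- congruence of the scalars
      have hmod : ((ExtCitation.cycloChar r φ : ZMod r)).val ≡ (ℓ : ℕ) [MOD r] := by
        rw [← ZMod.natCast_eq_natCast_iff, ZMod.natCast_val, ZMod.cast_id]
        exact h5
      rw [nsmul_eq_of_modEq hQr hmod, nsmul_eq_of_modEq hQr (Nat.ModEq.add_left 1 hmod)]
      -- push the relation to the quotient
      rw [Pair.smul_cl, Pair.smul_cl, ← map_nsmul, ← map_nsmul, ← map_add, ← sub_eq_zero,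
        ← map_sub, Pair.cl_eq_zero_iff]
      have hgoal : ((𝔭.smulX φ (𝔭.smulX φ x) + (ℓ : ℕ) • x - (1 + (ℓ : ℕ)) • 𝔭.smulX φ x : ↥𝔭.X) :
          JZero p) = eta p ℓ (φ • (x : JZero p)) := by
        have e1 : ((𝔭.smulX φ (𝔭.smulX φ x) + (ℓ : ℕ) • x - (1 + (ℓ : ℕ)) • 𝔭.smulX φ x : ↥𝔭.X) :
            JZero p) = φ • φ • (x : JZero p) + (ℓ : ℕ) • (x : JZero p) -
              (1 + (ℓ : ℕ)) • (φ • (x : JZero p)) := rfl
        rw [e1]
        have e2 : φ • φ • (x : JZero p) + (ℓ : ℕ) • (x : JZero p) =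
            eta p ℓ (φ • (x : JZero p)) + (1 + (ℓ : ℕ)) • (φ • (x : JZero p)) := by
          have := sub_eq_zero.1 (by
            rw [← hES]
            abel : φ • φ • (x : JZero p) + (ℓ : ℕ) • (x : JZero p) -
              (eta p ℓ (φ • (x : JZero p)) + (1 + (ℓ : ℕ)) • (φ • (x : JZero p))) = _)
          exact this
        rw [e2, add_sub_cancel_right]
      rw [hgoal]
      exact hkη ℓ hℓp _ hφx
  obtain ⟨hcard, hact⟩ := simple_piece (ExtCitation.cycloChar r) hQr hsimple hWC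
  -- the coordinate
  haveI : IsAddCyclic 𝔭.Q := isAddCyclic_of_prime_card hcard
  let κ : 𝔭.Q ≃+ ZMod r :=
    (zmodAddCyclicAddEquiv (G := 𝔭.Q) inferInstance).symm.trans
      (ZMod.ringEquivCongr hcard).toAddEquiv
  let ι : JZero p → ZMod r := fun x => if h : x ∈ 𝔭.X then κ (𝔭.cl ⟨x, h⟩) else 0
  have hι : ∀ (x : JZero p) (h : x ∈ 𝔭.X), ι x = κ (𝔭.cl ⟨x, h⟩) := fun x h => dif_pos h
  refine ⟨ι, ?_, ?_, ?_⟩
  · intro x hx y hy
    rw [hι x hx, hι y hy, hι (x + y) (𝔭.X.add_mem hx hy), ← map_add, ← map_add]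
    rfl
  · intro x hx
    rw [hι x hx, AddEquiv.map_eq_zero_iff, Pair.cl_eq_zero_iff]
  · rcases hact with h | h
    · left
      intro g x hx
      rw [hι x hx, hι (g • x) (hX.1 g x hx)]
      congr 1
      have := h g (𝔭.cl ⟨x, hx⟩)
      rw [Pair.smul_cl] at this
      exact this
    · right
      intro g x hx
      rw [hι x hx, hι (g • x) (hX.1 g x hx)]
      have := h g (𝔭.cl ⟨x, hx⟩)
      rw [Pair.smul_cl] at this
      have e : 𝔭.cl ⟨g • x, hX.1 g x hx⟩ = 𝔭.cl (𝔭.smulX g ⟨x, hx⟩) := rfl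
      rw [e, this, map_nsmul, nsmul_eq_mul, ZMod.natCast_val, ZMod.cast_id]
      rfl

/-- the structure of a maximal step -/
theorem exists_piece_data (hp : p.Prime) {r : ℕ} [Fact r.Prime] (hrp : r ≠ p) {K : ℕ}
    {X Y : AddSubgroup (JZero p)} (hX : IsStab p X) (hY : IsStab p Y)
    (hstep : IsMaxStep (IsStab p) Y X) (hXV : X ≤ VE p r K) :
    ∃ ι : JZero p → ZMod r,
      (∀ x ∈ X, ∀ y ∈ X, ι (x + y) = ι x + ι y) ∧ (∀ x ∈ X, ι x = 0 ↔ x ∈ Y) ∧
      ((∀ (g : GQ), ∀ x ∈ X, ι (g • x) = ι x) ∨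
        (∀ (g : GQ), ∀ x ∈ X, ι (g • x) = chi r g * ι x)) :=
  exists_piece_data_pair hp hrp ⟨X, Y, hstep.1.le, hX.1, hY.1⟩ hX hY hstep hXV

end Fermat.Agent.S15lib.Adm

end
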