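/-
S15lib / Adm / Main  (helper3)  — Project E, block (ADM)

`admStmt : Desc.AdmStmt`: the Eisenstein part `VE p r K` of `J₀(p)[r^K]` has a `G_ℚ`-stable
filtration with pieces `𝔽_r` or `μ_r` (Mazur II.14).
-/
import Fermat.Agent.S15lib.Adm.Piece

set_option autoImplicit false
set_option linter.unusedSectionVars false
set_option linter.style.haveILetI false

noncomputable section

namespace Fermat.Agent.S15lib.Adm

open ModularCurve Fermat.Agent.S29lib Fermat.Agent.S15lib.Desc Fermat.Agent.ExtVan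

local notation "Qb" => AlgebraicClosure ℚ
local notation "GQ" => (AlgebraicClosure ℚ ≃ₐ[ℚ] AlgebraicClosure ℚ)

variable {p : ℕ} [NeZero p]

/-- the `μ_r`-valued character attached to a `χ`-equivariant coordinate -/
theorem cycPiece_of_coordinate {r : ℕ} [Fact r.Prime] {W W' : AddSubgroup (JZero p)}
    (ι : JZero p → ZMod r) (hadd : ∀ x ∈ W', ∀ y ∈ W', ι (x + y) = ι x + ι y)
    (hker : ∀ x ∈ W', ι x = 0 ↔ x ∈ W)
    (hact : ∀ (g : GQ), ∀ x ∈ W', ι (g • x) = chi r g * ι x) : CycPiece p r W W' := by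
  have hr : r.Prime := Fact.out
  haveI : NeZero r := ⟨hr.ne_zero⟩
  set ζ : Qb := zetaQ r with hζdef
  have hζ : IsPrimitiveRoot ζ r := zetaQ_spec r
  have hζr : ζ ^ r = 1 := hζ.pow_eq_one
  refine ⟨fun x => ζ ^ (ι x).val, ?_, ?_, ?_, ?_⟩
  · intro x hx y hy
    show ζ ^ (ι (x + y)).val = ζ ^ (ι x).val * ζ ^ (ι y).val
    rw [hadd x hx y hy, ZMod.val_add, ← pow_add, ← pow_eq_pow_mod _ hζr]
  · intro x _
    show (ζ ^ (ι x).val) ^ r = 1
    rw [← pow_mul, mul_comm, pow_mul, hζr, one_pow]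
  · intro x hx
    show ζ ^ (ι x).val = 1 ↔ x ∈ W
    rw [hζ.pow_eq_one_iff_dvd, ← hker x hx]
    constructor
    · intro h
      have hlt : (ι x).val < r := ZMod.val_lt _
      have h0 : (ι x).val = 0 := Nat.eq_zero_of_dvd_of_lt h hlt
      exact (ZMod.val_eq_zero _).1 h0
    · intro h
      rw [h, ZMod.val_zero]
      exact dvd_zero r
  · intro g x hx
    show ζ ^ (ι (g • x)).val = g (ζ ^ (ι x).val)
    have h1 : (ζ ^ (ι x).val) ^ r = 1 := by rw [← pow_mul, mul_comm, pow_mul, hζr, one_pow]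
    rw [chi_spec g h1, hact g x hx, ZMod.val_mul, ← pow_eq_pow_mod _ hζr, ← pow_mul, mul_comm]

/-- **(ADM)** -/
theorem admStmt : AdmStmt := by
  intro p hp _ r hr hrp K
  haveI : NeZero p := ⟨hp.ne_zero⟩
  haveI : Fact r.Prime := ⟨hr⟩
  haveI : Finite ↥(VE p r K) := finite_VE hr K
  obtain ⟨n, W, hW0, hWn, hWP, hWstep⟩ :=
    exists_chain (IsStab p) isStab_bot (Nat.card ↥(VE p r K)) (VE p r K) le_rfl (isStab_VE hp hr K)
  have hmono : ∀ i < n, W i ≤ W (i + 1) := fun i hi => (hWstep i hi).1.le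
  have hle : ∀ k i : ℕ, i + k = n → W i ≤ W n := by
    intro k
    induction k with
    | zero => intro i hi; rw [add_zero] at hi; rw [hi]
    | succ k ih =>
      intro i hi
      exact (hmono i (by omega)).trans (ih (i + 1) (by omega))
  refine ⟨n, W, hW0, hWn, hmono, fun i hi σ x hx => (hWP i hi).1 σ x hx, fun i hi => ?_⟩
  have hXV : W (i + 1) ≤ VE p r K := by
    rw [← hWn]
    exact hle (n - (i + 1)) (i + 1) (by omega)
  obtain ⟨ι, hadd, hker, hact⟩ := exists_piece_data hp hrp (hWP (i + 1) (by omega))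
    (hWP i (by omega)) (hWstep i hi) hXV
  rcases hact with h | h
  · exact Or.inl ⟨ι, hadd, hker, h⟩
  · exact Or.inr (cycPiece_of_coordinate ι hadd hker h)

end Fermat.Agent.S15lib.Adm

end
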